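import Mathlib
import Fermat.Prelude.Def_AlgebraicCurve_IsCurveOver
import Fermat.Agent.Lib.FF.Setting
import Fermat.Agent.S27P.Adapter.Trdeg

/-!
# S27 brick (AD): from the Prelude hypotheses of S27 to `Lib.FF.IsFF1`

The frozen statement S27 is about `K F : Type*` with
`[IsAlgClosed K] [CharZero K] [IsCurveOver K F] [Algebra.EssFiniteType K F]`.
The Riemann–Roch layer `Lib/FF` works with `IsFF1 K F x`.  This file is the adapter:
`exists_isFF1 : ∃ x : F, IsFF1 K F x` (and the version that also returns transcendence and
finiteness explicitly).  `genusFF K F` is the same constant in both worlds, so no genus adapter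
is needed.
-/

set_option autoImplicit false

namespace Fermat.Agent.S27P.Adapter

open AlgebraicCurve IntermediateField

/-- **(AD).**  The S27 hypotheses give a `Lib.FF.IsFF1` structure, together with the
transcendence of the coordinate and the finiteness of `F` over `K(x)`. -/
theorem exists_transcendental_finiteDimensional_isFF1 (K F : Type*) [Field K] [Field F]
    [Algebra K F] [IsAlgClosed K] [CharZero K] [IsCurveOver K F] [Algebra.EssFiniteType K F] :
    ∃ x : F, Transcendental K x ∧ FiniteDimensional K⟮x⟯ F ∧ Fermat.Agent.Lib.FF.IsFF1 K F x := by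
  obtain ⟨x, hx, hfin⟩ := exists_transcendental_finiteDimensional K F
  exact ⟨x, hx, hfin, Fermat.Agent.Lib.FF.isFF1_of_charZero x hx⟩

/-- **(AD).**  The S27 hypotheses give a `Lib.FF.IsFF1` structure. -/
theorem exists_isFF1 (K F : Type*) [Field K] [Field F] [Algebra K F] [IsAlgClosed K] [CharZero K]
    [IsCurveOver K F] [Algebra.EssFiniteType K F] :
    ∃ x : F, Fermat.Agent.Lib.FF.IsFF1 K F x := by
  obtain ⟨x, -, -, h⟩ := exists_transcendental_finiteDimensional_isFF1 K F
  exact ⟨x, h⟩

end Fermat.Agent.S27P.Adapter
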