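/-
S27 (row 26) — THE TOP SEAM (helper48), architect's literal of ruling #1 (report #4113).

* `Top.card_torsion_pow_of_div_of_card` (ASM-0): the frozen statement of S27 from
  (DIVK) `Pic0 K F` is `ℓ`-divisible and (CNT1) `#Pic0 K F[ℓ] = ℓ ^ (2 g)`;
* `Top.seam_abstract` (ASM-1, abstract groups): (DIVK) and `#AK[ℓ] = ℓ ^ d` from (ANCHOR) for
  `B`, the reductions `ρK : AK → B`, `ρ0 : AΩ → AK`, `ρΩ : AΩ → B2`, the base changes
  `β : AK → AΩ`, `βk : B → B2`, (DIV_Ω) and (LIFT_Ω);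
* `Seam.card_torsion_of_seam`: the literal of the top seam (function fields
  `(K, F)`, `(k, Ft)`, `(Ω, FΩ)`, `(k2, Ft2)`, all eight types in their own universes).

Pure group theory; Mathlib + Prelude definitions only.
-/
import Mathlib
import Fermat.Prelude.Def_AlgebraicCurve_DivisorClassGroup
import Fermat.Prelude.Def_AlgebraicCurve_IsCurveOver
import Fermat.Prelude.Def_AlgebraicCurve_Repartitions

set_option autoImplicit false

namespace Fermat.Agent.S27P.Top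

open AlgebraicCurve

/-! ### Group theory: the `ℓ^k`-torsion of an `ℓ`-divisible group -/

section Group

variable {A : Type*} [AddCommGroup A]

/-- The subgroup of the elements killed by `n`. -/
def tors (A : Type*) [AddCommGroup A] (n : ℕ) : AddSubgroup A :=
  (nsmulAddMonoidHom (α := A) n).ker

theorem mem_tors {n : ℕ} {x : A} : x ∈ tors A n ↔ n • x = 0 := by
  rw [tors, AddMonoidHom.mem_ker]
  rfl

theorem card_tors_eq_card_subtype (n : ℕ) :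
    Nat.card (tors A n) = Nat.card {c : A // n • c = 0} :=
  Nat.card_congr (Equiv.subtypeEquivRight fun _ => mem_tors)

/-- Multiplication by `ℓ` from `A[ℓ^(k+1)]` to `A`. -/
def mulL (A : Type*) [AddCommGroup A] (ℓ k : ℕ) : tors A (ℓ ^ (k + 1)) →+ A :=
  (nsmulAddMonoidHom (α := A) ℓ).comp (tors A (ℓ ^ (k + 1))).subtype

theorem mulL_apply (ℓ k : ℕ) (x : tors A (ℓ ^ (k + 1))) : mulL A ℓ k x = ℓ • (x : A) := rfl

theorem range_mulL (ℓ k : ℕ) (hdiv : ∀ x : A, ∃ y : A, ℓ • y = x) :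
    (mulL A ℓ k).range = tors A (ℓ ^ k) := by
  ext y
  rw [AddMonoidHom.mem_range, mem_tors]
  constructor
  · rintro ⟨x, rfl⟩
    rw [mulL_apply, ← mul_nsmul, ← pow_succ']
    exact mem_tors.1 x.2
  · intro hy
    obtain ⟨x, rfl⟩ := hdiv y
    refine ⟨⟨x, mem_tors.2 ?_⟩, rfl⟩
    rw [pow_succ', mul_nsmul]
    exact hy

/-- The kernel of multiplication by `ℓ` on `A[ℓ^(k+1)]` is `A[ℓ]`. -/
def kerMulLEquiv (ℓ k : ℕ) : (mulL A ℓ k).ker ≃ tors A ℓ where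
  toFun x := ⟨((x : tors A (ℓ ^ (k + 1))) : A), mem_tors.2 (by
    have h := x.2
    rw [AddMonoidHom.mem_ker, mulL_apply] at h
    exact h)⟩
  invFun y := ⟨⟨(y : A), mem_tors.2 (by
    rw [pow_succ, mul_comm, mul_nsmul, mem_tors.1 y.2, nsmul_zero])⟩, by
    rw [AddMonoidHom.mem_ker, mulL_apply]
    exact mem_tors.1 y.2⟩
  left_inv x := rfl
  right_inv y := rfl

/-- **Counting the `ℓ^k`-torsion of an `ℓ`-divisible group.** -/
theorem card_tors_pow (ℓ : ℕ) (hdiv : ∀ x : A, ∃ y : A, ℓ • y = x) (k : ℕ) :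
    Nat.card (tors A (ℓ ^ k)) = Nat.card (tors A ℓ) ^ k := by
  induction k with
  | zero =>
    rw [pow_zero, pow_zero]
    have : Subsingleton (tors A 1) :=
      ⟨fun x y => Subtype.ext (by
        have hx := mem_tors.1 x.2
        have hy := mem_tors.1 y.2
        rw [one_nsmul] at hx hy
        rw [hx, hy])⟩
    exact Nat.card_unique
  | succ k ih =>
    have h1 := AddSubgroup.card_eq_card_quotient_mul_card_addSubgroup (mulL A ℓ k).ker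
    have h2 : Nat.card (tors A (ℓ ^ (k + 1)) ⧸ (mulL A ℓ k).ker) = Nat.card (tors A (ℓ ^ k)) := by
      rw [Nat.card_congr (QuotientAddGroup.quotientKerEquivRange (mulL A ℓ k)).toEquiv,
        range_mulL ℓ k hdiv]
    rw [h1, h2, Nat.card_congr (kerMulLEquiv ℓ k), ih, pow_succ]

/-- The `ℓ`-primary part. -/
def primary (A : Type*) [AddCommGroup A] (ℓ : ℕ) : AddSubgroup A where
  carrier := {x | ∃ n : ℕ, ℓ ^ n • x = 0}
  zero_mem' := ⟨0, nsmul_zero _⟩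
  add_mem' := by
    rintro x y ⟨n, hn⟩ ⟨m, hm⟩
    refine ⟨n + m, ?_⟩
    rw [nsmul_add, pow_add, mul_nsmul, hn, nsmul_zero, zero_add, mul_comm, mul_nsmul, hm,
      nsmul_zero]
  neg_mem' := by
    rintro x ⟨n, hn⟩
    exact ⟨n, by rw [smul_neg, hn, neg_zero]⟩

end Group

/-! ### (ASM-1), abstract groups -/

section Abstract

variable {AK AΩ B B2 : Type*} [AddCommGroup AK] [AddCommGroup AΩ] [AddCommGroup B]
  [AddCommGroup B2]

/-- **(ASM-1), abstract form**: `AK` is `ℓ`-divisible and `#AK[ℓ] = ℓ ^ d`, from (ANCHOR) for `B`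
(the conclusion of `Zeta.Anchor.anchor`, verbatim), the reductions `ρK`, `ρ0`, `ρΩ`, the base
changes `β`, `βk`, (DIV_Ω) and (LIFT_Ω). -/
theorem seam_abstract (ℓ d : ℕ)
    (hanchor : Finite {c : B // ℓ • c = 0} ∧ ℓ ^ d ≤ Nat.card {c : B // ℓ • c = 0} ∧
      ∀ D : AddSubgroup B, (∀ c ∈ D, ∃ n : ℕ, ℓ ^ n • c = 0) →
        (∀ c ∈ D, ∃ y ∈ D, ℓ • y = c) →
        Nat.card {c : B // c ∈ D ∧ ℓ • c = 0} ≤ ℓ ^ d)
    (ρK : AK →+ B) (β : AK →+ AΩ) (ρ0 : AΩ →+ AK) (ρΩ : AΩ →+ B2) (βk : B →+ B2)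
    (hρK_inj : ∀ c : AK, (∃ n : ℕ, ℓ ^ n • c = 0) → ρK c = 0 → c = 0)
    (hρK_surj : Function.Surjective ρK)
    (hρ0β : ∀ c : AK, ρ0 (β c) = c)
    (hρ0_inj : ∀ a : AΩ, ℓ • a = 0 → ρ0 a = 0 → a = 0)
    (hβk_inj : Function.Injective βk)
    (hsq : ∀ c : AK, ρΩ (β c) = βk (ρK c))
    (hdiv : ∀ c : AK, ∃ a : AΩ, ℓ • a = β c)
    (hlift : ∀ c : AK, ρK c = 0 → ∃ a : AΩ, ℓ • a = β c ∧ ρΩ a = 0) :
    (∀ c : AK, ∃ y : AK, ℓ • y = c) ∧ Nat.card {c : AK // ℓ • c = 0} = ℓ ^ d := by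
  obtain ⟨hfin, hlow, hup⟩ := hanchor
  -- (DIV_K)
  have hdivK : ∀ c : AK, ∃ y : AK, ℓ • y = c := by
    intro c
    obtain ⟨a, ha⟩ := hdiv c
    exact ⟨ρ0 a, by rw [← map_nsmul, ha, hρ0β]⟩
  -- `ρK` is onto on `ℓ`-torsion
  have hsurjℓ : ∀ b : B, ℓ • b = 0 → ∃ a' : AK, ℓ • a' = 0 ∧ ρK a' = b := by
    intro b hb
    obtain ⟨a₀, rfl⟩ := hρK_surj b
    have hc : ρK (ℓ • a₀) = 0 := by rw [map_nsmul, hb]
    obtain ⟨a₁, ha₁, hρa₁⟩ := hlift _ hc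
    have haℓ : ℓ • (β a₀ - a₁) = 0 := by rw [nsmul_sub, ha₁, map_nsmul, sub_self]
    have ha' : ℓ • ρ0 (β a₀ - a₁) = 0 := by rw [← map_nsmul, haℓ, map_zero]
    have heq : β a₀ - a₁ = β (ρ0 (β a₀ - a₁)) := by
      have h1 : ℓ • (β a₀ - a₁ - β (ρ0 (β a₀ - a₁))) = 0 := by
        rw [nsmul_sub, haℓ, ← map_nsmul, ha', map_zero, sub_zero]
      have h2 : ρ0 (β a₀ - a₁ - β (ρ0 (β a₀ - a₁))) = 0 := by
        rw [map_sub, hρ0β, sub_self]
      exact sub_eq_zero.1 (hρ0_inj _ h1 h2)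
    refine ⟨ρ0 (β a₀ - a₁), ha', hβk_inj ?_⟩
    rw [← hsq, ← heq, map_sub, hρa₁, sub_zero, hsq]
  refine ⟨hdivK, ?_⟩
  -- `ρK : AK[ℓ] → B[ℓ]` is bijective
  let e : {c : AK // ℓ • c = 0} → {c : B // ℓ • c = 0} := fun a =>
    ⟨ρK (a : AK), by rw [← map_nsmul, a.2, map_zero]⟩
  have he : Function.Bijective e := by
    constructor
    · intro a a' haa
      have h0 : ρK (a : AK) = ρK (a' : AK) :=
        congrArg (fun z : {c : B // ℓ • c = 0} => (z : B)) haa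
      have h1 : ρK ((a : AK) - (a' : AK)) = 0 := by rw [map_sub, h0, sub_self]
      have h2 : ℓ ^ 1 • ((a : AK) - (a' : AK)) = 0 := by
        rw [pow_one, nsmul_sub, a.2, a'.2, sub_zero]
      exact Subtype.ext (sub_eq_zero.1 (hρK_inj _ ⟨1, h2⟩ h1))
    · intro b
      obtain ⟨a', ha', hb⟩ := hsurjℓ (b : B) b.2
      exact ⟨⟨a', ha'⟩, Subtype.ext hb⟩
  have hcardeq : Nat.card {c : AK // ℓ • c = 0} = Nat.card {c : B // ℓ • c = 0} :=
    Nat.card_congr (Equiv.ofBijective e he)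
  -- the image of the `ℓ`-primary part of `AK`: `ℓ`-primary, `ℓ`-divisible, contains `B[ℓ]`
  have hD1 : ∀ c ∈ (primary AK ℓ).map ρK, ∃ n : ℕ, ℓ ^ n • c = 0 := by
    rintro _ ⟨a, ⟨n, hn⟩, rfl⟩
    exact ⟨n, by rw [← map_nsmul, hn, map_zero]⟩
  have hD2 : ∀ c ∈ (primary AK ℓ).map ρK, ∃ y ∈ (primary AK ℓ).map ρK, ℓ • y = c := by
    rintro _ ⟨a, ⟨n, hn⟩, rfl⟩
    obtain ⟨b, rfl⟩ := hdivK a
    refine ⟨ρK b, ⟨b, ⟨n + 1, ?_⟩, rfl⟩, (map_nsmul ρK ℓ b).symm⟩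
    rw [pow_succ', mul_nsmul]
    exact hn
  have hD3 : ∀ b : B, ℓ • b = 0 → b ∈ (primary AK ℓ).map ρK := by
    intro b hb
    obtain ⟨a', ha', rfl⟩ := hsurjℓ b hb
    exact ⟨a', ⟨1, by rw [pow_one]; exact ha'⟩, rfl⟩
  have hcardD : Nat.card {c : B // c ∈ (primary AK ℓ).map ρK ∧ ℓ • c = 0} =
      Nat.card {c : B // ℓ • c = 0} :=
    Nat.card_congr (Equiv.subtypeEquivRight fun c => ⟨fun h => h.2, fun h => ⟨hD3 c h, h⟩⟩)
  have hle : Nat.card {c : B // ℓ • c = 0} ≤ ℓ ^ d := by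
    rw [← hcardD]
    exact hup _ hD1 hD2
  rw [hcardeq]
  exact le_antisymm hle hlow

end Abstract

/-! ### (ASM-0): the frozen statement from (DIVK) and (CNT1) -/

section Top

variable (K : Type*) (F : Type*) [Field K] [Field F] [Algebra K F]

/-- The Prelude's torsion subgroup, as the kernel of `n • ·`. -/
theorem torsion_eq_tors (n : ℕ) : Pic0.torsion K F n = tors (Pic0 K F) n := by
  ext x
  rw [Pic0.mem_torsion, mem_tors, natCast_zsmul]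

/-- **S27 from (DIVK) and (CNT1)**: if `Pic0 K F` is `ℓ`-divisible and has `ℓ ^ (2 g)` classes
killed by `ℓ`, it has `ℓ ^ (2 g k)` classes killed by `ℓ ^ k`. -/
theorem card_torsion_pow_of_div_of_card (ℓ : ℕ)
    (hdiv : ∀ x : Pic0 K F, ∃ y : Pic0 K F, ℓ • y = x)
    (hcard : Nat.card {c : Pic0 K F // ℓ • c = 0} = ℓ ^ (2 * genusFF K F)) (k : ℕ) :
    Nat.card (Pic0.torsion K F (ℓ ^ k)) = ℓ ^ (2 * genusFF K F * k) := by
  rw [torsion_eq_tors, card_tors_pow ℓ hdiv k, card_tors_eq_card_subtype, hcard, ← pow_mul]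

end Top

end Fermat.Agent.S27P.Top

namespace Fermat.Agent.S27P.Seam

open AlgebraicCurve

/-- **THE TOP SEAM of S27** (architect's ruling #1, literal): the count of the `ℓ^n`-torsion of
`Pic0 K F` from (ANCHOR) on the special fibre `(k, Ft)`, the genus equality, the three
reductions `ρK`, `ρ0`, `ρΩ`, the two base changes `β`, `βk`, (DIV_Ω) and (LIFT_Ω). -/
theorem card_torsion_of_seam
    {K : Type*} {F : Type*} [Field K] [Field F] [Algebra K F]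
    {k : Type*} {Ft : Type*} [Field k] [Field Ft] [Algebra k Ft]
    {Ω : Type*} {FΩ : Type*} [Field Ω] [Field FΩ] [Algebra Ω FΩ]
    {k2 : Type*} {Ft2 : Type*} [Field k2] [Field Ft2] [Algebra k2 Ft2]
    (ℓ : ℕ) [Fact ℓ.Prime]
    (hanchor : Finite {c : Pic0 k Ft // ℓ • c = 0} ∧
      ℓ ^ (2 * genusFF k Ft) ≤ Nat.card {c : Pic0 k Ft // ℓ • c = 0} ∧
      ∀ D : AddSubgroup (Pic0 k Ft), (∀ c ∈ D, ∃ n : ℕ, ℓ ^ n • c = 0) →
        (∀ c ∈ D, ∃ y ∈ D, ℓ • y = c) →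
        Nat.card {c : Pic0 k Ft // c ∈ D ∧ ℓ • c = 0} ≤ ℓ ^ (2 * genusFF k Ft))
    (hg : genusFF k Ft = genusFF K F)
    (ρK : Pic0 K F →+ Pic0 k Ft) (β : Pic0 K F →+ Pic0 Ω FΩ) (ρ0 : Pic0 Ω FΩ →+ Pic0 K F)
    (ρΩ : Pic0 Ω FΩ →+ Pic0 k2 Ft2) (βk : Pic0 k Ft →+ Pic0 k2 Ft2)
    (hρK_inj : ∀ c : Pic0 K F, (∃ n : ℕ, ℓ ^ n • c = 0) → ρK c = 0 → c = 0)
    (hρK_surj : Function.Surjective ρK)
    (hρ0β : ∀ c : Pic0 K F, ρ0 (β c) = c)
    (hρ0_inj : ∀ a : Pic0 Ω FΩ, ℓ • a = 0 → ρ0 a = 0 → a = 0)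
    (hβk_inj : Function.Injective βk)
    (hsq : ∀ c : Pic0 K F, ρΩ (β c) = βk (ρK c))
    (hdiv : ∀ c : Pic0 K F, ∃ a : Pic0 Ω FΩ, ℓ • a = β c)
    (hlift : ∀ c : Pic0 K F, ρK c = 0 → ∃ a : Pic0 Ω FΩ, ℓ • a = β c ∧ ρΩ a = 0)
    (n : ℕ) : Nat.card (Pic0.torsion K F (ℓ ^ n)) = ℓ ^ (2 * genusFF K F * n) := by
  obtain ⟨hdivK, hcard⟩ := Fermat.Agent.S27P.Top.seam_abstract ℓ (2 * genusFF k Ft) hanchor
    ρK β ρ0 ρΩ βk hρK_inj hρK_surj hρ0β hρ0_inj hβk_inj hsq hdiv hlift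
  rw [hg] at hcard
  exact Fermat.Agent.S27P.Top.card_torsion_pow_of_div_of_card K F ℓ hdivK hcard n

end Fermat.Agent.S27P.Seam
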