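/-
S27 project, brick (GT) (helper37): the group-theoretic anchor.

`T` an `ℓ`-primary abelian group, `f` an endomorphism, `Fix (f^(ℓ^j))` finite of order
`ℓ^(c + d j)` for all `j`, and `T = ⋃_j Fix (f^(ℓ^j))`.  Then

* `T[ℓ]` is finite;
* `ℓ^d ≤ #T[ℓ]`;
* every `ℓ`-divisible subgroup `D` of `T` has `#D[ℓ] ≤ ℓ^d`.

`anchor_of_counts` is the form consumed by the (ANCHOR) assembly: an ambient abelian group `G`
with an automorphism `φ` with finite orbits, fixed-point counts `h m = #Fix (φ^m)` and the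
`ℓ`-adic valuation formula of brick (AR).

Mathlib only.
-/
import Mathlib

set_option autoImplicit false

namespace Fermat.Agent.S27P.GT

open Polynomial

/-! ### Ring identities -/

/-- `(1 + δ)^n = 1 + n • δ + R * δ^2` in any ring. -/
theorem one_add_pow_expand {E : Type*} [Ring E] (δ : E) (n : ℕ) :
    ∃ R : E, (1 + δ) ^ n = 1 + n • δ + R * δ ^ 2 := by
  induction n with
  | zero => exact ⟨0, by simp⟩
  | succ n ih =>
    obtain ⟨R, hR⟩ := ih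
    refine ⟨R + (n : E) + R * δ, ?_⟩
    rw [pow_succ, hR]
    simp only [nsmul_eq_mul, Nat.cast_succ]
    noncomm_ring

/-- In `ℤ[X]`: `(X - 1)^(ℓ^j) = X^(ℓ^j) - 1 + ℓ * P`. -/
theorem exists_frob_poly (ℓ : ℕ) [Fact ℓ.Prime] (j : ℕ) :
    ∃ P : ℤ[X], (X - 1 : ℤ[X]) ^ (ℓ ^ j) = X ^ (ℓ ^ j) - 1 + C (ℓ : ℤ) * P := by
  have h : ((X - 1 : ℤ[X]) ^ (ℓ ^ j) - (X ^ (ℓ ^ j) - 1)).map (Int.castRingHom (ZMod ℓ)) = 0 := by
    simp only [Polynomial.map_sub, Polynomial.map_pow, Polynomial.map_X, Polynomial.map_one]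
    rw [sub_pow_char_pow, one_pow, sub_self]
  have hdvd : C (ℓ : ℤ) ∣ ((X - 1 : ℤ[X]) ^ (ℓ ^ j) - (X ^ (ℓ ^ j) - 1)) := by
    rw [Polynomial.C_dvd_iff_dvd_coeff]
    intro i
    have h2 := congrArg (fun p => p.coeff i) h
    simp only [Polynomial.coeff_map, Polynomial.coeff_zero] at h2
    exact (ZMod.intCast_zmod_eq_zero_iff_dvd _ _).mp h2
  obtain ⟨P, hP⟩ := hdvd
  exact ⟨P, by rw [← hP]; ring⟩

/-- If `a^i ≤ A * b^i` for all `i`, then `a ≤ b`. -/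
theorem le_of_forall_pow_le_mul_pow {a b A : ℕ} (h : ∀ i : ℕ, a ^ i ≤ A * b ^ i) : a ≤ b := by
  by_contra hlt
  rw [not_le] at hlt
  -- `(b + i) * b^i ≤ b * (b+1)^i`
  have key : ∀ i : ℕ, (b + i) * b ^ i ≤ b * (b + 1) ^ i := by
    intro i
    induction i with
    | zero => simp
    | succ i ih =>
      calc (b + (i + 1)) * b ^ (i + 1) = b * ((b + i) * b ^ i) + b ^ (i + 1) := by ring
        _ ≤ b * (b * (b + 1) ^ i) + b * (b + 1) ^ i := by
          have h1 : b ^ (i + 1) ≤ b * (b + 1) ^ i := by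
            rw [pow_succ']
            exact Nat.mul_le_mul_left _ (Nat.pow_le_pow_left (Nat.le_succ b) i)
          exact Nat.add_le_add (Nat.mul_le_mul_left _ ih) h1
        _ = b * (b + 1) ^ (i + 1) := by ring
  rcases Nat.eq_zero_or_pos b with hb | hb
  · subst hb
    have := h 1
    simp at this
    omega
  · have h1 := h (b * A + 1)
    have h2 := key (b * A + 1)
    have h3 : (b + 1) ^ (b * A + 1) ≤ a ^ (b * A + 1) := Nat.pow_le_pow_left hlt _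
    have h4 : (b + (b * A + 1)) * b ^ (b * A + 1) ≤ b * (A * b ^ (b * A + 1)) :=
      h2.trans (Nat.mul_le_mul_left _ (h3.trans h1))
    have h5 : b * (A * b ^ (b * A + 1)) = (b * A) * b ^ (b * A + 1) := by ring
    rw [h5] at h4
    have h6 := Nat.le_of_mul_le_mul_right h4 (pow_pos hb _)
    omega

/-- Numerics: `ℓ^(c + d j) < 2^(ℓ^j)` for a suitable `j`. -/
theorem exists_pow_lt_two_pow (ℓ c d : ℕ) (hℓ : 2 ≤ ℓ) : ∃ j : ℕ, ℓ ^ (c + d * j) < 2 ^ (ℓ ^ j) := by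
  have key : ∀ n : ℕ, 8 ≤ n → n * (n + 1) < 2 ^ (n - 1) := by
    intro n hn
    induction n, hn using Nat.le_induction with
    | base => norm_num
    | succ n hn ih =>
      have h1 : n + 1 - 1 = (n - 1) + 1 := by omega
      rw [h1, pow_succ]
      nlinarith
  refine ⟨c + d + 8, ?_⟩
  set j := c + d + 8 with hj
  have h1 : c + d * j ≤ j * (j + 1) := by
    have : d * j ≤ j * j := Nat.mul_le_mul_right _ (by omega)
    nlinarith
  have h2 : j * (j + 1) < 2 ^ (j - 1) := key j (by omega)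
  have h3 : ℓ ^ (c + d * j) ≤ (2 ^ ℓ) ^ (c + d * j) :=
    Nat.pow_le_pow_left (Nat.lt_two_pow_self).le _
  have h4 : (2 ^ ℓ) ^ (c + d * j) = 2 ^ (ℓ * (c + d * j)) := by rw [← pow_mul]
  have h5 : ℓ * (c + d * j) < ℓ ^ j := by
    have h6 : ℓ ^ j = ℓ * ℓ ^ (j - 1) := by
      have hj1 : j = (j - 1) + 1 := by omega
      conv_lhs => rw [hj1]
      rw [pow_succ']
    rw [h6]
    have h7 : (2 : ℕ) ^ (j - 1) ≤ ℓ ^ (j - 1) := Nat.pow_le_pow_left hℓ _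
    exact Nat.mul_lt_mul_of_pos_left (by omega) (by omega)
  calc ℓ ^ (c + d * j) ≤ 2 ^ (ℓ * (c + d * j)) := h4 ▸ h3
    _ < 2 ^ (ℓ ^ j) := Nat.pow_lt_pow_right (by norm_num) h5


/-! ### Subgroups -/

section Core

variable {T : Type*} [AddCommGroup T]

/-- Fixed points of an endomorphism. -/
def fixSub (f : Module.End ℤ T) : AddSubgroup T where
  carrier := {x | f x = x}
  zero_mem' := map_zero f
  add_mem' := fun {a b} (ha : f a = a) (hb : f b = b) => by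
    show f (a + b) = a + b
    rw [map_add, ha, hb]
  neg_mem' := fun {a} (ha : f a = a) => by
    show f (-a) = -a
    rw [map_neg, ha]

theorem mem_fixSub {f : Module.End ℤ T} {x : T} : x ∈ fixSub f ↔ f x = x := Iff.rfl

/-- The `n`-torsion of a subgroup. -/
def torIn (D : AddSubgroup T) (n : ℕ) : AddSubgroup T where
  carrier := {x | x ∈ D ∧ n • x = 0}
  zero_mem' := ⟨D.zero_mem, smul_zero n⟩
  add_mem' := fun {a b} ha hb => ⟨D.add_mem ha.1 hb.1, by rw [smul_add, ha.2, hb.2, add_zero]⟩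
  neg_mem' := fun {a} ha => ⟨D.neg_mem ha.1, by rw [smul_neg, ha.2, neg_zero]⟩

theorem mem_torIn {D : AddSubgroup T} {n : ℕ} {x : T} :
    x ∈ torIn D n ↔ x ∈ D ∧ n • x = 0 := Iff.rfl

theorem torIn_le_top (D : AddSubgroup T) (n : ℕ) : torIn D n ≤ torIn ⊤ n :=
  fun _ hx => ⟨AddSubgroup.mem_top _, hx.2⟩

theorem pow_apply_of_fixed {g : Module.End ℤ T} {x : T} (h : g x = x) (k : ℕ) :
    (g ^ k) x = x := by
  induction k with
  | zero => simp
  | succ k ih => rw [pow_succ, Module.End.mul_apply, h, ih]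

theorem fixSub_pow_mono (ℓ : ℕ) (f : Module.End ℤ T) {j j' : ℕ} (h : j ≤ j') :
    fixSub (f ^ (ℓ ^ j)) ≤ fixSub (f ^ (ℓ ^ j')) := by
  intro x hx
  obtain ⟨k, rfl⟩ := Nat.exists_eq_add_of_le h
  rw [mem_fixSub, pow_add, pow_mul]
  exact pow_apply_of_fixed hx _

theorem card_ker_mul_card_range {A B : Type*} [AddGroup A] [AddGroup B] (φ : A →+ B) :
    Nat.card φ.ker * Nat.card φ.range = Nat.card A := by
  rw [← AddSubgroup.index_ker, AddSubgroup.card_mul_index]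

/-! ### Step 1: finiteness of the `ℓ`-torsion -/

theorem sub_one_pow_apply_of_torsion (ℓ : ℕ) [Fact ℓ.Prime] (f : Module.End ℤ T) (j : ℕ) {x : T}
    (hx : ℓ • x = 0) : ((f - 1) ^ (ℓ ^ j)) x = (f ^ (ℓ ^ j)) x - x := by
  obtain ⟨P, hP⟩ := exists_frob_poly ℓ j
  have h := congrArg (fun p => Polynomial.aeval f p) hP
  simp only [map_pow, map_sub, aeval_X, map_one, map_add, map_mul, aeval_C] at h
  rw [h, LinearMap.add_apply, LinearMap.sub_apply, Module.End.one_apply, Module.End.mul_apply,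
    Module.algebraMap_end_apply]
  have h0 : ((ℓ : ℕ) : ℤ) • (Polynomial.aeval f P) x = 0 := by
    rw [← map_zsmul, natCast_zsmul, hx, map_zero]
  rw [h0, add_zero]

/-- The filtration `K i = T[ℓ] ∩ ker (f-1)^i`. -/
def kerFil (ℓ : ℕ) (f : Module.End ℤ T) (i : ℕ) : AddSubgroup T where
  carrier := {x | ℓ • x = 0 ∧ ((f - 1) ^ i) x = 0}
  zero_mem' := ⟨smul_zero ℓ, map_zero _⟩
  add_mem' := fun {a b} ha hb =>
    ⟨by rw [smul_add, ha.1, hb.1, add_zero], by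
      show ((f - 1) ^ i) (a + b) = 0
      rw [map_add, ha.2, hb.2, add_zero]⟩
  neg_mem' := fun {a} ha =>
    ⟨by rw [smul_neg, ha.1, neg_zero], by
      show ((f - 1) ^ i) (-a) = 0
      rw [map_neg, ha.2, neg_zero]⟩

theorem mem_kerFil {ℓ : ℕ} {f : Module.End ℤ T} {i : ℕ} {x : T} :
    x ∈ kerFil ℓ f i ↔ ℓ • x = 0 ∧ ((f - 1) ^ i) x = 0 := Iff.rfl

theorem kerFil_mono (ℓ : ℕ) (f : Module.End ℤ T) : Monotone (kerFil ℓ f) := by
  refine monotone_nat_of_le_succ (fun i x hx => ?_)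
  refine ⟨hx.1, ?_⟩
  rw [pow_succ', Module.End.mul_apply, hx.2, map_zero]

theorem kerFil_le_fixSub (ℓ : ℕ) [Fact ℓ.Prime] (f : Module.End ℤ T) (j : ℕ) :
    kerFil ℓ f (ℓ ^ j) ≤ fixSub (f ^ (ℓ ^ j)) := by
  intro x hx
  have h := sub_one_pow_apply_of_torsion ℓ f j hx.1
  rw [hx.2] at h
  exact (sub_eq_zero.1 h.symm)

theorem kerFil_stab (ℓ : ℕ) (f : Module.End ℤ T) {i : ℕ} (h : kerFil ℓ f (i + 1) = kerFil ℓ f i)
    (m : ℕ) : kerFil ℓ f (i + m) = kerFil ℓ f i := by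
  induction m with
  | zero => rfl
  | succ m ih =>
    refine le_antisymm (fun x hx => ?_) (kerFil_mono ℓ f (by omega))
    have h1 : (f - 1) x ∈ kerFil ℓ f (i + m) := by
      refine ⟨by rw [← map_nsmul, hx.1, map_zero], ?_⟩
      rw [← Module.End.mul_apply, ← pow_succ]
      exact hx.2
    rw [ih] at h1
    have h2 : x ∈ kerFil ℓ f (i + 1) := by
      refine ⟨hx.1, ?_⟩
      rw [pow_succ, Module.End.mul_apply]
      exact h1.2
    rw [h] at h2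
    exact h2

theorem finite_torsion (ℓ : ℕ) [Fact ℓ.Prime] (f : Module.End ℤ T) (c d : ℕ)
    (hcard : ∀ j : ℕ, Nat.card (fixSub (f ^ (ℓ ^ j))) = ℓ ^ (c + d * j))
    (hun : ∀ x : T, ∃ j : ℕ, (f ^ (ℓ ^ j)) x = x) :
    Finite (torIn (⊤ : AddSubgroup T) ℓ) := by
  have hℓ : ℓ.Prime := Fact.out
  have hfinFix : ∀ j : ℕ, Finite (fixSub (f ^ (ℓ ^ j))) := fun j =>
    Nat.finite_of_card_ne_zero (by rw [hcard j]; exact pow_ne_zero _ hℓ.ne_zero)
  have hKle : ∀ i : ℕ, kerFil ℓ f i ≤ fixSub (f ^ (ℓ ^ i)) := fun i =>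
    (kerFil_mono ℓ f (Nat.lt_pow_self hℓ.one_lt).le).trans (kerFil_le_fixSub ℓ f i)
  have hfinK : ∀ i : ℕ, Finite (kerFil ℓ f i) := fun i =>
    have := hfinFix i
    Finite.of_injective (AddSubgroup.inclusion (hKle i)) (AddSubgroup.inclusion_injective (hKle i))
  -- every `ℓ`-torsion element lies in some `K i`
  have hVK : ∀ x : T, ℓ • x = 0 → ∃ j : ℕ, x ∈ kerFil ℓ f (ℓ ^ j) := by
    intro x hx
    obtain ⟨j, hj⟩ := hun x
    refine ⟨j, hx, ?_⟩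
    rw [sub_one_pow_apply_of_torsion ℓ f j hx, hj, sub_self]
  by_cases hstab : ∃ i : ℕ, kerFil ℓ f (i + 1) = kerFil ℓ f i
  · obtain ⟨i, hi⟩ := hstab
    have hle : torIn (⊤ : AddSubgroup T) ℓ ≤ kerFil ℓ f i := by
      intro x hx
      obtain ⟨j, hj⟩ := hVK x hx.2
      have h1 : x ∈ kerFil ℓ f (i + ℓ ^ j) := kerFil_mono ℓ f (by omega) hj
      rwa [kerFil_stab ℓ f hi] at h1
    have := hfinK i
    exact Finite.of_injective (AddSubgroup.inclusion hle) (AddSubgroup.inclusion_injective hle)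
  · exfalso
    simp only [not_exists] at hstab
    have hgrow : ∀ m : ℕ, 2 ^ m ≤ Nat.card (kerFil ℓ f m) := by
      intro m
      induction m with
      | zero =>
        have := hfinK 0
        rw [pow_zero]
        exact Nat.card_pos
      | succ m ih =>
        have := hfinK m
        have := hfinK (m + 1)
        have hle : kerFil ℓ f m ≤ kerFil ℓ f (m + 1) := kerFil_mono ℓ f (Nat.le_succ m)
        obtain ⟨t, ht⟩ := AddSubgroup.card_dvd_of_le hle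
        have hpos : 0 < Nat.card (kerFil ℓ f (m + 1)) := Nat.card_pos
        have ht1 : t ≠ 1 := by
          rintro rfl
          rw [mul_one] at ht
          exact hstab m (AddSubgroup.eq_of_le_of_card_ge hle ht.le).symm
        have ht0 : t ≠ 0 := by
          rintro rfl
          rw [mul_zero] at ht
          omega
        have ht2 : 2 ≤ t := by omega
        calc 2 ^ (m + 1) = 2 ^ m * 2 := pow_succ 2 m
          _ ≤ Nat.card (kerFil ℓ f m) * t := Nat.mul_le_mul ih ht2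
          _ = Nat.card (kerFil ℓ f (m + 1)) := ht.symm
    obtain ⟨j, hj⟩ := exists_pow_lt_two_pow ℓ c d hℓ.two_le
    have h1 := hgrow (ℓ ^ j)
    have := hfinFix j
    have h2 : Nat.card (kerFil ℓ f (ℓ ^ j)) ≤ Nat.card (fixSub (f ^ (ℓ ^ j))) :=
      AddSubgroup.card_le_of_le (kerFil_le_fixSub ℓ f j)
    rw [hcard j] at h2
    omega


/-! ### Step 2: `Fix (g^(ℓ^i)) = (ℓ^i)⁻¹ Fix g` when `g` is trivial on `T[ℓ²]` -/

theorem pow_prime_apply_expand (g : Module.End ℤ T) (n : ℕ) :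
    ∃ R : Module.End ℤ T, ∀ y : T, (g ^ n) y = y + n • (g y - y) + R ((g - 1) (g y - y)) := by
  obtain ⟨R, hR⟩ := one_add_pow_expand (g - 1) n
  refine ⟨R, fun y => ?_⟩
  have hg : g = 1 + (g - 1) := by abel
  have h1 : (g ^ n) y = ((1 + (g - 1)) ^ n) y := by rw [← hg]
  rw [h1, hR]
  simp only [LinearMap.add_apply, Module.End.one_apply, LinearMap.smul_apply,
    Module.End.mul_apply, LinearMap.sub_apply, pow_two]

theorem fix_pow_prime_iff (ℓ : ℕ) (hprim : ∀ x : T, ∃ n : ℕ, ℓ ^ n • x = 0)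
    (g : Module.End ℤ T) (htriv : ∀ x : T, ℓ ^ 2 • x = 0 → g x = x) (x : T) :
    (g ^ ℓ) x = x ↔ g (ℓ • x) = ℓ • x := by
  obtain ⟨R, hR⟩ := pow_prime_apply_expand g ℓ
  set w := g x - x with hw
  have h1 : g (ℓ • x) = ℓ • x ↔ ℓ • w = 0 := by
    rw [map_nsmul, hw, smul_sub, sub_eq_zero]
  have hδ0 : ∀ u : T, ℓ ^ 2 • u = 0 → (g - 1) u = 0 := fun u hu => by
    rw [LinearMap.sub_apply, Module.End.one_apply, htriv u hu, sub_self]
  rw [h1, hR x]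
  constructor
  · intro hfix
    have hsum : ℓ • w + R ((g - 1) w) = 0 := by
      have h2 : x + (ℓ • w + R ((g - 1) w)) = x + 0 := by rw [← add_assoc, hfix, add_zero]
      exact add_left_cancel h2
    have claim : ∀ a : ℕ, ℓ ^ (a + 1) • w = 0 → ℓ • w = 0 := by
      intro a
      induction a with
      | zero => intro h; simpa using h
      | succ a ih =>
        intro h
        apply ih
        have hu : ℓ ^ 2 • (ℓ ^ a • w) = 0 := by
          rw [← mul_smul, ← pow_add]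
          have e : 2 + a = a + 1 + 1 := by omega
          rw [e]
          exact h
        have h3 : ℓ ^ a • (g - 1) w = 0 := by
          rw [← map_nsmul]
          exact hδ0 _ hu
        have h4 : ℓ ^ a • (ℓ • w + R ((g - 1) w)) = 0 := by rw [hsum, smul_zero]
        rw [smul_add, ← map_nsmul, h3, map_zero, add_zero, ← mul_smul, ← pow_succ] at h4
        exact h4
    obtain ⟨n, hn⟩ := hprim w
    apply claim n
    rw [pow_succ', mul_smul, hn, smul_zero]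
  · intro hℓw
    have h2 : (g - 1) w = 0 := hδ0 w (by rw [pow_two, mul_smul, hℓw, smul_zero])
    rw [hℓw, h2, map_zero, add_zero, add_zero]

theorem fix_pow_pow_iff (ℓ : ℕ) (hprim : ∀ x : T, ∃ n : ℕ, ℓ ^ n • x = 0)
    (g : Module.End ℤ T) (htriv : ∀ x : T, ℓ ^ 2 • x = 0 → g x = x) (i : ℕ) (x : T) :
    (g ^ (ℓ ^ i)) x = x ↔ g (ℓ ^ i • x) = ℓ ^ i • x := by
  induction i generalizing x with
  | zero => simp
  | succ i ih =>
    rw [pow_succ, pow_mul]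
    rw [fix_pow_prime_iff ℓ hprim (g ^ (ℓ ^ i))
      (fun y hy => pow_apply_of_fixed (htriv y hy) _) x]
    rw [ih (ℓ • x), ← mul_smul]

/-- If `τ` is trivial on `T[ℓ]`, then `τ^ℓ` is trivial on `T[ℓ²]`. -/
theorem pow_prime_trivial_sq (ℓ : ℕ) (τ : Module.End ℤ T) (hτ : ∀ x : T, ℓ • x = 0 → τ x = x)
    (x : T) (hx : ℓ ^ 2 • x = 0) : (τ ^ ℓ) x = x := by
  obtain ⟨R, hR⟩ := pow_prime_apply_expand τ ℓ
  have h1 : τ (ℓ • x) = ℓ • x := hτ _ (by rw [← mul_smul, ← pow_two]; exact hx)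
  have h2 : ℓ • (τ x - x) = 0 := by rw [smul_sub, ← map_nsmul, h1, sub_self]
  have h3 : (τ - 1) (τ x - x) = 0 := by
    rw [LinearMap.sub_apply, Module.End.one_apply, hτ _ h2, sub_self]
  rw [hR x, h2, h3, map_zero, add_zero, add_zero]

/-! ### Step 3: counting -/

theorem torIn_top_le_fixSub (ℓ : ℕ) (hprim : ∀ x : T, ∃ n : ℕ, ℓ ^ n • x = 0)
    (g : Module.End ℤ T) (htriv : ∀ x : T, ℓ ^ 2 • x = 0 → g x = x) (i : ℕ) :
    torIn (⊤ : AddSubgroup T) (ℓ ^ i) ≤ fixSub (g ^ (ℓ ^ i)) := by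
  intro x hx
  rw [mem_fixSub, fix_pow_pow_iff ℓ hprim g htriv i x, hx.2, map_zero]

theorem card_fixSub_pow_le (ℓ : ℕ) (hprim : ∀ x : T, ∃ n : ℕ, ℓ ^ n • x = 0)
    (g : Module.End ℤ T) (htriv : ∀ x : T, ℓ ^ 2 • x = 0 → g x = x) (i : ℕ)
    [Finite (fixSub g)] [Finite (torIn (⊤ : AddSubgroup T) (ℓ ^ i))] :
    Nat.card (fixSub (g ^ (ℓ ^ i))) ≤
      Nat.card (torIn (⊤ : AddSubgroup T) (ℓ ^ i)) * Nat.card (fixSub g) := by
  let μ : fixSub (g ^ (ℓ ^ i)) →+ fixSub g :=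
    AddMonoidHom.codRestrict
      ((nsmulAddMonoidHom (α := T) (ℓ ^ i)).comp (fixSub (g ^ (ℓ ^ i))).subtype) (fixSub g)
      (fun x => (fix_pow_pow_iff ℓ hprim g htriv i x.1).1 x.2)
  have hμ : ∀ x : fixSub (g ^ (ℓ ^ i)), ((μ x : fixSub g) : T) = ℓ ^ i • (x : T) := fun x => rfl
  have hker : Nat.card μ.ker ≤ Nat.card (torIn (⊤ : AddSubgroup T) (ℓ ^ i)) := by
    refine Nat.card_le_card_of_injective
      (fun x : μ.ker => (⟨((x : fixSub (g ^ (ℓ ^ i))) : T), AddSubgroup.mem_top _, ?_⟩ :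
        torIn (⊤ : AddSubgroup T) (ℓ ^ i))) ?_
    · have h1 : μ (x : fixSub (g ^ (ℓ ^ i))) = 0 := x.2
      have h2 := congrArg (fun y : fixSub g => (y : T)) h1
      simpa [hμ] using h2
    · intro x y hxy
      have h1 : ((x : fixSub (g ^ (ℓ ^ i))) : T) = ((y : fixSub (g ^ (ℓ ^ i))) : T) :=
        congrArg (fun z : torIn (⊤ : AddSubgroup T) (ℓ ^ i) => (z : T)) hxy
      exact Subtype.ext (Subtype.ext h1)
  have hrange : Nat.card μ.range ≤ Nat.card (fixSub g) :=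
    Nat.card_le_card_of_injective _ Subtype.coe_injective
  calc Nat.card (fixSub (g ^ (ℓ ^ i))) = Nat.card μ.ker * Nat.card μ.range :=
        (card_ker_mul_card_range μ).symm
    _ ≤ _ := Nat.mul_le_mul hker hrange

/-- For an `ℓ`-divisible subgroup `D` with finite torsion: `#D[ℓ^(i+1)] = #D[ℓ] * #D[ℓ^i]`. -/
theorem card_torIn_succ (ℓ : ℕ) (D : AddSubgroup T) (hdiv : ∀ x ∈ D, ∃ y ∈ D, ℓ • y = x)
    (i : ℕ) :
    Nat.card (torIn D (ℓ ^ (i + 1))) = Nat.card (torIn D ℓ) * Nat.card (torIn D (ℓ ^ i)) := by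
  let ν : torIn D (ℓ ^ (i + 1)) →+ torIn D (ℓ ^ i) :=
    AddMonoidHom.codRestrict
      ((nsmulAddMonoidHom (α := T) ℓ).comp (torIn D (ℓ ^ (i + 1))).subtype) (torIn D (ℓ ^ i))
      (fun x => ⟨D.nsmul_mem x.2.1 ℓ, by
        show ℓ ^ i • (ℓ • (x : T)) = 0
        rw [← mul_smul, ← pow_succ]
        exact x.2.2⟩)
  have hν : ∀ x : torIn D (ℓ ^ (i + 1)), ((ν x : torIn D (ℓ ^ i)) : T) = ℓ • (x : T) :=
    fun x => rfl
  have hsurj : Function.Surjective ν := by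
    rintro ⟨y, hyD, hy⟩
    obtain ⟨x, hxD, hx⟩ := hdiv y hyD
    refine ⟨⟨x, hxD, ?_⟩, Subtype.ext ?_⟩
    · rw [pow_succ, mul_smul, hx, hy]
    · rw [hν]
      exact hx
  have hrange : Nat.card ν.range = Nat.card (torIn D (ℓ ^ i)) := by
    rw [AddMonoidHom.range_eq_top.2 hsurj]
    exact Nat.card_congr (AddSubgroup.topEquiv.toEquiv)
  have hker : Nat.card ν.ker = Nat.card (torIn D ℓ) := by
    refine Nat.card_congr
      { toFun := fun x => ⟨((x : torIn D (ℓ ^ (i + 1))) : T), x.1.2.1, ?_⟩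
        invFun := fun y => ⟨⟨(y : T), y.2.1, ?_⟩, ?_⟩
        left_inv := fun x => rfl
        right_inv := fun y => rfl }
    · have h1 : ν (x : torIn D (ℓ ^ (i + 1))) = 0 := x.2
      have h2 := congrArg (fun y : torIn D (ℓ ^ i) => (y : T)) h1
      simpa [hν] using h2
    · rw [pow_succ, mul_smul, y.2.2, smul_zero]
    · rw [AddMonoidHom.mem_ker]
      exact Subtype.ext y.2.2
  rw [← card_ker_mul_card_range ν, hker, hrange]

theorem card_torIn_pow (ℓ : ℕ) (D : AddSubgroup T) (hdiv : ∀ x ∈ D, ∃ y ∈ D, ℓ • y = x)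
    (i : ℕ) : Nat.card (torIn D (ℓ ^ i)) = Nat.card (torIn D ℓ) ^ i := by
  induction i with
  | zero =>
    have h : torIn D (ℓ ^ 0) = ⊥ := by
      rw [eq_bot_iff]
      intro x hx
      have := hx.2
      rw [pow_zero, one_smul] at this
      exact this
    rw [h, pow_zero]
    exact AddSubgroup.card_bot
  | succ i ih => rw [card_torIn_succ ℓ D hdiv i, ih, pow_succ, mul_comm]


/-! ### The core theorem -/

theorem exists_level (ℓ : ℕ) (f : Module.End ℤ T)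
    (hun : ∀ x : T, ∃ j : ℕ, (f ^ (ℓ ^ j)) x = x) [Finite (torIn (⊤ : AddSubgroup T) ℓ)] :
    ∃ j₁ : ℕ, ∀ x : T, ℓ • x = 0 → (f ^ (ℓ ^ j₁)) x = x := by
  classical
  let _ : Fintype (torIn (⊤ : AddSubgroup T) ℓ) := Fintype.ofFinite _
  choose j hj using hun
  refine ⟨Finset.univ.sup (fun x : torIn (⊤ : AddSubgroup T) ℓ => j x), fun x hx => ?_⟩
  have h1 : j x ≤ Finset.univ.sup (fun x : torIn (⊤ : AddSubgroup T) ℓ => j x) :=
    Finset.le_sup (f := fun x : torIn (⊤ : AddSubgroup T) ℓ => j x)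
      (Finset.mem_univ ⟨x, AddSubgroup.mem_top _, hx⟩)
  exact fixSub_pow_mono ℓ f h1 (hj x)

/-- **(GT), endomorphism form.** -/
theorem gt_core_end (ℓ : ℕ) [Fact ℓ.Prime] (f : Module.End ℤ T) (c d : ℕ)
    (hprim : ∀ x : T, ∃ n : ℕ, ℓ ^ n • x = 0)
    (hcard : ∀ j : ℕ, Nat.card (fixSub (f ^ (ℓ ^ j))) = ℓ ^ (c + d * j))
    (hun : ∀ x : T, ∃ j : ℕ, (f ^ (ℓ ^ j)) x = x) :
    Finite (torIn (⊤ : AddSubgroup T) ℓ) ∧ ℓ ^ d ≤ Nat.card (torIn (⊤ : AddSubgroup T) ℓ) ∧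
    ∀ D : AddSubgroup T, (∀ x ∈ D, ∃ y ∈ D, ℓ • y = x) → Nat.card (torIn D ℓ) ≤ ℓ ^ d := by
  have hℓ : ℓ.Prime := Fact.out
  have hV := finite_torsion ℓ f c d hcard hun
  obtain ⟨j₁, hj₁⟩ := exists_level ℓ f hun
  have htriv : ∀ x : T, ℓ ^ 2 • x = 0 → (f ^ (ℓ ^ (j₁ + 1))) x = x := by
    intro x hx
    rw [pow_succ, pow_mul]
    exact pow_prime_trivial_sq ℓ (f ^ (ℓ ^ j₁)) hj₁ x hx
  have hgpow : ∀ i : ℕ, (f ^ (ℓ ^ (j₁ + 1))) ^ (ℓ ^ i) = f ^ (ℓ ^ (j₁ + 1 + i)) := fun i => by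
    rw [← pow_mul, ← pow_add]
  have hfinFix : ∀ j : ℕ, Finite (fixSub (f ^ (ℓ ^ j))) := fun j =>
    Nat.finite_of_card_ne_zero (by rw [hcard j]; exact pow_ne_zero _ hℓ.ne_zero)
  have hle : ∀ i : ℕ, torIn (⊤ : AddSubgroup T) (ℓ ^ i) ≤ fixSub (f ^ (ℓ ^ (j₁ + 1 + i))) :=
    fun i => by
      have h := torIn_top_le_fixSub ℓ hprim (f ^ (ℓ ^ (j₁ + 1))) htriv i
      rwa [hgpow i] at h
  have hfinTor : ∀ i : ℕ, Finite (torIn (⊤ : AddSubgroup T) (ℓ ^ i)) := fun i => by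
    have := hfinFix (j₁ + 1 + i)
    exact Finite.of_injective (AddSubgroup.inclusion (hle i))
      (AddSubgroup.inclusion_injective (hle i))
  have hupper : ∀ i : ℕ, Nat.card (torIn (⊤ : AddSubgroup T) (ℓ ^ i)) ≤
      ℓ ^ (c + d * (j₁ + 1)) * (ℓ ^ d) ^ i := by
    intro i
    have := hfinFix (j₁ + 1 + i)
    have h1 := AddSubgroup.card_le_of_le (hle i)
    rw [hcard] at h1
    have h2 : ℓ ^ (c + d * (j₁ + 1 + i)) = ℓ ^ (c + d * (j₁ + 1)) * (ℓ ^ d) ^ i := by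
      rw [← pow_mul, ← pow_add]
      congr 1
      ring
    rw [h2] at h1
    exact h1
  have hlower : ∀ i : ℕ, ℓ ^ (d * i) ≤ Nat.card (torIn (⊤ : AddSubgroup T) (ℓ ^ i)) := by
    intro i
    have := hfinTor i
    have := hfinFix (j₁ + 1)
    have h1 := card_fixSub_pow_le ℓ hprim (f ^ (ℓ ^ (j₁ + 1))) htriv i
    rw [hgpow i, hcard, hcard] at h1
    have h2 : ℓ ^ (c + d * (j₁ + 1 + i)) = ℓ ^ (d * i) * ℓ ^ (c + d * (j₁ + 1)) := by
      rw [← pow_add]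
      congr 1
      ring
    rw [h2] at h1
    exact Nat.le_of_mul_le_mul_right h1 (pow_pos hℓ.pos _)
  refine ⟨hV, ?_, fun D hdiv => ?_⟩
  · have h1 := hlower 1
    rw [mul_one, pow_one] at h1
    exact h1
  · apply le_of_forall_pow_le_mul_pow (A := ℓ ^ (c + d * (j₁ + 1)))
    intro i
    rw [← card_torIn_pow ℓ D hdiv i]
    have := hfinTor i
    exact (AddSubgroup.card_le_of_le (torIn_le_top D (ℓ ^ i))).trans (hupper i)

theorem toIntLinearMap_pow_apply (ψ : T →+ T) (n : ℕ) (x : T) :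
    ((ψ.toIntLinearMap : Module.End ℤ T) ^ n) x = ψ^[n] x := by
  rw [Module.End.pow_apply]
  rfl

end Core

/-- **(GT), core.**  `T` an `ℓ`-primary abelian group, `ψ` an endomorphism of `T`,
`#Fix (ψ^(ℓ^j)) = ℓ^(c + d j)` for all `j` and `T = ⋃_j Fix (ψ^(ℓ^j))`.  Then `T[ℓ]` is finite
with at least `ℓ^d` elements, and every `ℓ`-divisible subgroup of `T` has at most `ℓ^d` elements
killed by `ℓ`. -/
theorem gt_core {T : Type*} [AddCommGroup T] (ℓ : ℕ) [Fact ℓ.Prime] (ψ : T →+ T) (c d : ℕ)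
    (hprim : ∀ x : T, ∃ n : ℕ, ℓ ^ n • x = 0)
    (hcard : ∀ j : ℕ, Nat.card {x : T // ψ^[ℓ ^ j] x = x} = ℓ ^ (c + d * j))
    (hun : ∀ x : T, ∃ j : ℕ, ψ^[ℓ ^ j] x = x) :
    Finite {x : T // ℓ • x = 0} ∧ ℓ ^ d ≤ Nat.card {x : T // ℓ • x = 0} ∧
    ∀ D : AddSubgroup T, (∀ x ∈ D, ∃ y ∈ D, ℓ • y = x) →
      Nat.card {x : T // x ∈ D ∧ ℓ • x = 0} ≤ ℓ ^ d := by
  have hpow : ∀ (n : ℕ) (x : T), ((ψ.toIntLinearMap : Module.End ℤ T) ^ n) x = ψ^[n] x :=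
    toIntLinearMap_pow_apply ψ
  have e1 : ∀ j : ℕ, {x : T // ψ^[ℓ ^ j] x = x} ≃
      fixSub ((ψ.toIntLinearMap : Module.End ℤ T) ^ (ℓ ^ j)) := fun j =>
    Equiv.subtypeEquivRight (fun x => by rw [mem_fixSub, hpow])
  have e2 : {x : T // ℓ • x = 0} ≃ torIn (⊤ : AddSubgroup T) ℓ :=
    Equiv.subtypeEquivRight (fun x => by rw [mem_torIn]; simp)
  obtain ⟨h1, h2, h3⟩ := gt_core_end ℓ (ψ.toIntLinearMap : Module.End ℤ T) c d hprim
    (fun j => by rw [← Nat.card_congr (e1 j), hcard])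
    (fun x => by
      obtain ⟨j, hj⟩ := hun x
      exact ⟨j, by rw [hpow]; exact hj⟩)
  refine ⟨Finite.of_equiv _ e2.symm, by rw [Nat.card_congr e2]; exact h2, fun D hdiv => ?_⟩
  have e3 : {x : T // x ∈ D ∧ ℓ • x = 0} ≃ torIn D ℓ :=
    Equiv.subtypeEquivRight (fun x => Iff.rfl)
  rw [Nat.card_congr e3]
  exact h3 D hdiv

/-! ### The `ℓ`-primary part of a finite abelian group -/

/-- The `ℓ`-primary part of a finite abelian group `H` has `ℓ^(v_ℓ #H)` elements. -/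
theorem card_primary_of_finite {H : Type*} [AddCommGroup H] [Finite H] (ℓ : ℕ) [Fact ℓ.Prime] :
    Nat.card {x : H // ∃ n : ℕ, ℓ ^ n • x = 0} = ℓ ^ padicValNat ℓ (Nat.card H) := by
  have hℓ : ℓ.Prime := Fact.out
  have hH0 : Nat.card H ≠ 0 := Nat.card_pos.ne'
  obtain ⟨e, u, hu, hH⟩ := Nat.exists_eq_pow_mul_and_not_dvd hH0 ℓ hℓ.ne_one
  have hu0 : u ≠ 0 := by
    rintro rfl
    exact hu (dvd_zero ℓ)
  have hval : padicValNat ℓ (Nat.card H) = e := by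
    rw [hH, padicValNat.mul (pow_ne_zero _ hℓ.ne_zero) hu0, padicValNat.prime_pow,
      padicValNat.eq_zero_of_not_dvd hu, add_zero]
  rw [hval]
  let φ : H →+ H := nsmulAddMonoidHom (α := H) (ℓ ^ e)
  have hφ : ∀ x : H, φ x = ℓ ^ e • x := fun x => rfl
  -- the primary part is the kernel of `ℓ^e`
  have hker : ∀ x : H, (∃ n : ℕ, ℓ ^ n • x = 0) ↔ x ∈ φ.ker := by
    intro x
    rw [AddMonoidHom.mem_ker, hφ]
    constructor
    · rintro ⟨n, hn⟩
      have h1 : addOrderOf x ∣ ℓ ^ n := addOrderOf_dvd_of_nsmul_eq_zero hn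
      obtain ⟨k, -, hk⟩ := (Nat.dvd_prime_pow hℓ).1 h1
      have h2 : addOrderOf x ∣ Nat.card H := addOrderOf_dvd_natCard x
      rw [hk, hH] at h2
      have h3 : ℓ ^ k ∣ ℓ ^ e :=
        (Nat.Coprime.pow_left k ((Nat.Prime.coprime_iff_not_dvd hℓ).2 hu)).dvd_of_dvd_mul_right h2
      rw [← hk] at h3
      exact addOrderOf_dvd_iff_nsmul_eq_zero.1 h3
    · intro h
      exact ⟨e, h⟩
  rw [Nat.card_congr (Equiv.subtypeEquivRight hker)]
  have hprod := card_ker_mul_card_range φ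
  -- `ℓ ∤ #range`
  have hrange : ¬ ℓ ∣ Nat.card φ.range := by
    intro hdvd
    obtain ⟨y, hy⟩ := exists_prime_addOrderOf_dvd_card' ℓ hdvd
    obtain ⟨z, hz⟩ := y.2
    have h1 : u • y = 0 := by
      apply Subtype.ext
      rw [AddSubgroup.coe_nsmul, ← hz, hφ, ← mul_smul, mul_comm, ← hH]
      exact card_nsmul_eq_zero'
    have h2 : addOrderOf y ∣ u := addOrderOf_dvd_of_nsmul_eq_zero h1
    rw [hy] at h2
    exact hu h2
  -- `#ker` is a power of `ℓ`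
  have hkerpow : ∃ b : ℕ, Nat.card φ.ker = ℓ ^ b := by
    refine ⟨_, Nat.eq_prime_pow_of_unique_prime_dvd Nat.card_pos.ne' (fun {r} hr hdvd => ?_)⟩
    have : Fact r.Prime := ⟨hr⟩
    obtain ⟨x, hx⟩ := exists_prime_addOrderOf_dvd_card' r hdvd
    have h1 : ℓ ^ e • x = 0 := by
      apply Subtype.ext
      rw [AddSubgroup.coe_nsmul]
      exact x.2
    have h2 : addOrderOf x ∣ ℓ ^ e := addOrderOf_dvd_of_nsmul_eq_zero h1
    rw [hx] at h2
    exact (Nat.prime_dvd_prime_iff_eq hr hℓ).1 (hr.dvd_of_dvd_pow h2)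
  obtain ⟨b, hb⟩ := hkerpow
  have hr0 : Nat.card φ.range ≠ 0 := Nat.card_pos.ne'
  have hval2 : padicValNat ℓ (Nat.card φ.ker * Nat.card φ.range) = b := by
    rw [hb, padicValNat.mul (pow_ne_zero _ hℓ.ne_zero) hr0, padicValNat.prime_pow,
      padicValNat.eq_zero_of_not_dvd hrange, add_zero]
  rw [hprod, hval] at hval2
  rw [hb, hval2]

/-! ### The abstract anchor -/

section Anchor

variable {G : Type*} [AddCommGroup G]

/-- The `ℓ`-primary part, as a `ℤ`-submodule. -/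
def primary (G : Type*) [AddCommGroup G] (ℓ : ℕ) : Submodule ℤ G where
  carrier := {x | ∃ n : ℕ, ℓ ^ n • x = 0}
  zero_mem' := ⟨0, smul_zero _⟩
  add_mem' := by
    rintro a b ⟨n, hn⟩ ⟨m, hm⟩
    refine ⟨n + m, ?_⟩
    have h1 : ℓ ^ (n + m) • a = 0 := by rw [pow_add, mul_comm, mul_smul, hn, smul_zero]
    have h2 : ℓ ^ (n + m) • b = 0 := by rw [pow_add, mul_smul, hm, smul_zero]
    rw [smul_add, h1, h2, add_zero]
  smul_mem' := by
    rintro z a ⟨n, hn⟩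
    exact ⟨n, by rw [smul_comm, hn, smul_zero]⟩

theorem mem_primary {ℓ : ℕ} {x : G} : x ∈ primary G ℓ ↔ ∃ n : ℕ, ℓ ^ n • x = 0 := Iff.rfl

/-- The `ℓ`-primary fixed points of an endomorphism. -/
def primFix (ℓ : ℕ) (F : Module.End ℤ G) : AddSubgroup G :=
  (primary G ℓ).toAddSubgroup ⊓ fixSub F

theorem mem_primFix {ℓ : ℕ} {F : Module.End ℤ G} {x : G} :
    x ∈ primFix ℓ F ↔ (∃ n : ℕ, ℓ ^ n • x = 0) ∧ F x = x := Iff.rfl

theorem card_primFix (ℓ : ℕ) [Fact ℓ.Prime] (F : Module.End ℤ G) [Finite (fixSub F)] :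
    Nat.card (primFix ℓ F) = ℓ ^ padicValNat ℓ (Nat.card (fixSub F)) := by
  rw [← card_primary_of_finite (H := fixSub F) ℓ]
  refine Nat.card_congr
    { toFun := fun x => ⟨⟨x.1, x.2.2⟩, by
        obtain ⟨n, hn⟩ := x.2.1
        exact ⟨n, Subtype.ext (by simpa using hn)⟩⟩
      invFun := fun y => ⟨y.1.1, by
        obtain ⟨n, hn⟩ := y.2
        exact ⟨n, by simpa using congrArg Subtype.val hn⟩, y.1.2⟩
      left_inv := fun x => rfl
      right_inv := fun y => rfl }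

/-- **(ANCHOR), abstract, endomorphism form.** -/
theorem anchor_of_counts_end (ℓ : ℕ) [Fact ℓ.Prime] (F : Module.End ℤ G)
    (h : ℕ → ℕ) (m₁ c d : ℕ) (hm₁ : 0 < m₁)
    (hfix : ∀ m : ℕ, 0 < m → Nat.card (fixSub (F ^ m)) = h m)
    (hpos : ∀ m : ℕ, 0 < m → h m ≠ 0)
    (horb : ∀ x : G, ∃ m : ℕ, 0 < m ∧ (F ^ m) x = x)
    (hval : ∀ j n' : ℕ, 0 < n' → ¬ ℓ ∣ n' → padicValNat ℓ (h (m₁ * n' * ℓ ^ j)) = c + d * j) :
    Finite (torIn (⊤ : AddSubgroup G) ℓ) ∧ ℓ ^ d ≤ Nat.card (torIn (⊤ : AddSubgroup G) ℓ) ∧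
    ∀ D : AddSubgroup G, (∀ x ∈ D, ∃ n : ℕ, ℓ ^ n • x = 0) → (∀ x ∈ D, ∃ y ∈ D, ℓ • y = x) →
      Nat.card (torIn D ℓ) ≤ ℓ ^ d := by
  have hℓ : ℓ.Prime := Fact.out
  have hℓ1 : ¬ ℓ ∣ 1 := hℓ.not_dvd_one
  have hfinFix : ∀ m : ℕ, 0 < m → Finite (fixSub (F ^ m)) := fun m hm =>
    Nat.finite_of_card_ne_zero (by rw [hfix m hm]; exact hpos m hm)
  -- the number of `ℓ`-primary fixed points
  have hcardP : ∀ j n' : ℕ, 0 < n' → ¬ ℓ ∣ n' →
      Nat.card (primFix ℓ (F ^ (m₁ * n' * ℓ ^ j))) = ℓ ^ (c + d * j) := by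
    intro j n' hn' hℓn'
    have hM : 0 < m₁ * n' * ℓ ^ j := Nat.mul_pos (Nat.mul_pos hm₁ hn') (pow_pos hℓ.pos _)
    have := hfinFix _ hM
    rw [card_primFix, hfix _ hM, hval j n' hn' hℓn']
  -- the restricted endomorphism
  have hstab : ∀ x ∈ primary G ℓ, (F ^ m₁) x ∈ primary G ℓ := by
    rintro x ⟨n, hn⟩
    exact ⟨n, by rw [← map_nsmul, hn, map_zero]⟩
  let f : Module.End ℤ (primary G ℓ) := (F ^ m₁).restrict hstab
  have hf : ∀ x : primary G ℓ, ((f x : primary G ℓ) : G) = (F ^ m₁) (x : G) := fun x => rfl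
  have hfpow : ∀ (k : ℕ) (x : primary G ℓ),
      (((f ^ k) x : primary G ℓ) : G) = (F ^ (m₁ * k)) (x : G) := by
    intro k
    induction k with
    | zero => intro x; simp
    | succ k ih =>
      intro x
      rw [pow_succ, Module.End.mul_apply, ih, hf, Nat.mul_succ, pow_add, Module.End.mul_apply]
  have hprim : ∀ x : primary G ℓ, ∃ n : ℕ, ℓ ^ n • x = 0 := by
    intro x
    obtain ⟨n, hn⟩ := x.2
    exact ⟨n, Subtype.ext (by simpa using hn)⟩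
  have hcardP1 : ∀ j : ℕ, Nat.card (primFix ℓ (F ^ (m₁ * ℓ ^ j))) = ℓ ^ (c + d * j) := by
    intro j
    have h1 := hcardP j 1 one_pos hℓ1
    rwa [mul_one] at h1
  have hcard : ∀ j : ℕ, Nat.card (fixSub (f ^ (ℓ ^ j))) = ℓ ^ (c + d * j) := by
    intro j
    rw [← hcardP1 j]
    refine Nat.card_congr
      { toFun := fun x => ⟨x.1.1, x.1.2, ?_⟩
        invFun := fun y => ⟨⟨y.1, y.2.1⟩, ?_⟩
        left_inv := fun x => rfl
        right_inv := fun y => rfl }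
    · have h1 : (f ^ (ℓ ^ j)) x.1 = x.1 := x.2
      have h2 := congrArg (fun z : primary G ℓ => (z : G)) h1
      simp only [hfpow] at h2
      exact h2
    · rw [mem_fixSub]
      apply Subtype.ext
      rw [hfpow]
      exact y.2.2
  have hun : ∀ x : primary G ℓ, ∃ j : ℕ, (f ^ (ℓ ^ j)) x = x := by
    intro x
    obtain ⟨m, hm, hmx⟩ := horb (x : G)
    obtain ⟨j, n', hn', rfl⟩ := Nat.exists_eq_pow_mul_and_not_dvd hm.ne' ℓ hℓ.ne_one
    have hn'0 : 0 < n' := by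
      rcases Nat.eq_zero_or_pos n' with h0 | h0
      · subst h0
        exact absurd (dvd_zero ℓ) hn'
      · exact h0
    refine ⟨j, ?_⟩
    have hx' : (x : G) ∈ primFix ℓ (F ^ (m₁ * n' * ℓ ^ j)) := by
      refine ⟨x.2, ?_⟩
      show (F ^ (m₁ * n' * ℓ ^ j)) (x : G) = x
      have e : m₁ * n' * ℓ ^ j = (ℓ ^ j * n') * m₁ := by ring
      rw [e, pow_mul]
      exact pow_apply_of_fixed hmx _
    have hle : primFix ℓ (F ^ (m₁ * ℓ ^ j)) ≤ primFix ℓ (F ^ (m₁ * n' * ℓ ^ j)) := by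
      intro y hy
      refine ⟨hy.1, ?_⟩
      show (F ^ (m₁ * n' * ℓ ^ j)) y = y
      have e : m₁ * n' * ℓ ^ j = (m₁ * ℓ ^ j) * n' := by ring
      rw [e, pow_mul]
      exact pow_apply_of_fixed hy.2 _
    have hfin : Finite (primFix ℓ (F ^ (m₁ * n' * ℓ ^ j))) :=
      Nat.finite_of_card_ne_zero (by
        rw [hcardP j n' hn'0 hn']
        exact pow_ne_zero _ hℓ.ne_zero)
    have heq := AddSubgroup.eq_of_le_of_card_ge hle
      (by rw [hcardP1 j, hcardP j n' hn'0 hn'])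
    rw [← heq] at hx'
    apply Subtype.ext
    rw [hfpow]
    exact hx'.2
  obtain ⟨h1, h2, h3⟩ := gt_core_end ℓ f c d hprim hcard hun
  have e : torIn (⊤ : AddSubgroup G) ℓ ≃ torIn (⊤ : AddSubgroup (primary G ℓ)) ℓ :=
    { toFun := fun x => ⟨⟨x.1, ⟨1, by simpa using x.2.2⟩⟩, AddSubgroup.mem_top _,
        Subtype.ext (by simpa using x.2.2)⟩
      invFun := fun y => ⟨y.1.1, AddSubgroup.mem_top _, by
        simpa using congrArg (fun z : primary G ℓ => (z : G)) y.2.2⟩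
      left_inv := fun x => rfl
      right_inv := fun y => rfl }
  refine ⟨Finite.of_equiv _ e.symm, by rw [Nat.card_congr e]; exact h2, fun D hDprim hdiv => ?_⟩
  let D' : AddSubgroup (primary G ℓ) := D.comap (primary G ℓ).subtype.toAddMonoidHom
  have hD' : ∀ x : primary G ℓ, x ∈ D' ↔ (x : G) ∈ D := fun x => Iff.rfl
  have hdiv' : ∀ x ∈ D', ∃ y ∈ D', ℓ • y = x := by
    intro x hx
    obtain ⟨y, hy, hyx⟩ := hdiv (x : G) hx
    exact ⟨⟨y, hDprim y hy⟩, hy, Subtype.ext (by simpa using hyx)⟩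
  have e' : torIn D ℓ ≃ torIn D' ℓ :=
    { toFun := fun x => ⟨⟨x.1, hDprim x.1 x.2.1⟩, x.2.1, Subtype.ext (by simpa using x.2.2)⟩
      invFun := fun y => ⟨y.1.1, y.2.1, by
        simpa using congrArg (fun z : primary G ℓ => (z : G)) y.2.2⟩
      left_inv := fun x => rfl
      right_inv := fun y => rfl }
  rw [Nat.card_congr e']
  exact h3 D' hdiv'

/-- **(ANCHOR), abstract.**  `G` an abelian group, `φ` an endomorphism all of whose orbits are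
finite, `h m = #Fix (φ^m)` finite and nonzero for `m > 0`, and the valuation formula of brick (AR):
`v_ℓ (h (m₁ n' ℓ^j)) = c + d j` for `n'` prime to `ℓ`.  Then `G[ℓ]` is finite with at least `ℓ^d`
elements, and every `ℓ`-primary `ℓ`-divisible subgroup of `G` has at most `ℓ^d` elements killed by
`ℓ`. -/
theorem anchor_of_counts (ℓ : ℕ) [Fact ℓ.Prime] (φ : G →+ G)
    (h : ℕ → ℕ) (m₁ c d : ℕ) (hm₁ : 0 < m₁)
    (hfix : ∀ m : ℕ, 0 < m → Nat.card {x : G // φ^[m] x = x} = h m)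
    (hpos : ∀ m : ℕ, 0 < m → h m ≠ 0)
    (horb : ∀ x : G, ∃ m : ℕ, 0 < m ∧ φ^[m] x = x)
    (hval : ∀ j n' : ℕ, 0 < n' → ¬ ℓ ∣ n' → padicValNat ℓ (h (m₁ * n' * ℓ ^ j)) = c + d * j) :
    Finite {x : G // ℓ • x = 0} ∧ ℓ ^ d ≤ Nat.card {x : G // ℓ • x = 0} ∧
    ∀ D : AddSubgroup G, (∀ x ∈ D, ∃ n : ℕ, ℓ ^ n • x = 0) → (∀ x ∈ D, ∃ y ∈ D, ℓ • y = x) →
      Nat.card {x : G // x ∈ D ∧ ℓ • x = 0} ≤ ℓ ^ d := by
  have hpow : ∀ (n : ℕ) (x : G), ((φ.toIntLinearMap : Module.End ℤ G) ^ n) x = φ^[n] x :=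
    toIntLinearMap_pow_apply φ
  have e1 : ∀ m : ℕ, {x : G // φ^[m] x = x} ≃
      fixSub ((φ.toIntLinearMap : Module.End ℤ G) ^ m) := fun m =>
    Equiv.subtypeEquivRight (fun x => by rw [mem_fixSub, hpow])
  have e2 : {x : G // ℓ • x = 0} ≃ torIn (⊤ : AddSubgroup G) ℓ :=
    Equiv.subtypeEquivRight (fun x => by rw [mem_torIn]; simp)
  obtain ⟨h1, h2, h3⟩ := anchor_of_counts_end ℓ (φ.toIntLinearMap : Module.End ℤ G) h m₁ c d hm₁
    (fun m hm => by rw [← Nat.card_congr (e1 m), hfix m hm]) hpos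
    (fun x => by
      obtain ⟨m, hm, hmx⟩ := horb x
      exact ⟨m, hm, by rw [hpow]; exact hmx⟩) hval
  refine ⟨Finite.of_equiv _ e2.symm, by rw [Nat.card_congr e2]; exact h2,
    fun D hDprim hdiv => ?_⟩
  have e3 : {x : G // x ∈ D ∧ ℓ • x = 0} ≃ torIn D ℓ :=
    Equiv.subtypeEquivRight (fun x => Iff.rfl)
  rw [Nat.card_congr e3]
  exact h3 D hDprim hdiv

/-- **(ANCHOR), abstract**, for an additive automorphism. -/
theorem anchor_of_counts_addEquiv (ℓ : ℕ) [Fact ℓ.Prime] (φ : G ≃+ G)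
    (h : ℕ → ℕ) (m₁ c d : ℕ) (hm₁ : 0 < m₁)
    (hfix : ∀ m : ℕ, 0 < m → Nat.card {x : G // φ^[m] x = x} = h m)
    (hpos : ∀ m : ℕ, 0 < m → h m ≠ 0)
    (horb : ∀ x : G, ∃ m : ℕ, 0 < m ∧ φ^[m] x = x)
    (hval : ∀ j n' : ℕ, 0 < n' → ¬ ℓ ∣ n' → padicValNat ℓ (h (m₁ * n' * ℓ ^ j)) = c + d * j) :
    Finite {x : G // ℓ • x = 0} ∧ ℓ ^ d ≤ Nat.card {x : G // ℓ • x = 0} ∧
    ∀ D : AddSubgroup G, (∀ x ∈ D, ∃ n : ℕ, ℓ ^ n • x = 0) → (∀ x ∈ D, ∃ y ∈ D, ℓ • y = x) →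
      Nat.card {x : G // x ∈ D ∧ ℓ • x = 0} ≤ ℓ ^ d :=
  anchor_of_counts ℓ φ.toAddMonoidHom h m₁ c d hm₁ hfix hpos horb hval

/-- **(ANCHOR), abstract**, for an element `φ` of a monoid acting additively on `G`
(e.g. `G = Pic0 k F`, `φ : SemilinearAut k F` a Frobenius structure). -/
theorem anchor_of_counts_smul {M : Type*} [Monoid M] [DistribMulAction M G] (ℓ : ℕ)
    [Fact ℓ.Prime] (φ : M) (h : ℕ → ℕ) (m₁ c d : ℕ) (hm₁ : 0 < m₁)
    (hfix : ∀ m : ℕ, 0 < m → Nat.card {x : G // φ ^ m • x = x} = h m)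
    (hpos : ∀ m : ℕ, 0 < m → h m ≠ 0)
    (horb : ∀ x : G, ∃ m : ℕ, 0 < m ∧ φ ^ m • x = x)
    (hval : ∀ j n' : ℕ, 0 < n' → ¬ ℓ ∣ n' → padicValNat ℓ (h (m₁ * n' * ℓ ^ j)) = c + d * j) :
    Finite {x : G // ℓ • x = 0} ∧ ℓ ^ d ≤ Nat.card {x : G // ℓ • x = 0} ∧
    ∀ D : AddSubgroup G, (∀ x ∈ D, ∃ n : ℕ, ℓ ^ n • x = 0) → (∀ x ∈ D, ∃ y ∈ D, ℓ • y = x) →
      Nat.card {x : G // x ∈ D ∧ ℓ • x = 0} ≤ ℓ ^ d := by
  have hit : ∀ (m : ℕ) (x : G), (DistribSMul.toAddMonoidHom G φ)^[m] x = φ ^ m • x := by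
    intro m x
    have h1 : (⇑(DistribSMul.toAddMonoidHom G φ) : G → G) = (φ • · : G → G) := rfl
    rw [h1, smul_iterate]
  refine anchor_of_counts ℓ (DistribSMul.toAddMonoidHom G φ) h m₁ c d hm₁ (fun m hm => ?_) hpos
    (fun x => ?_) hval
  · rw [← hfix m hm]
    exact Nat.card_congr (Equiv.subtypeEquivRight (fun x => by rw [hit]))
  · obtain ⟨m, hm, hmx⟩ := horb x
    exact ⟨m, hm, by rw [hit]; exact hmx⟩

/-- **(ANCHOR), abstract**, monoid-action form with `ℤ`-valued counts and `padicValInt` (the shape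
exported by the formal zeta chain). -/
theorem anchor_of_counts_smul_int {M : Type*} [Monoid M] [DistribMulAction M G] (ℓ : ℕ)
    [Fact ℓ.Prime] (φ : M) (h : ℕ → ℤ) (m₁ c d : ℕ) (hm₁ : 0 < m₁)
    (hfix : ∀ m : ℕ, 0 < m → (Nat.card {x : G // φ ^ m • x = x} : ℤ) = h m)
    (hpos : ∀ m : ℕ, 0 < m → h m ≠ 0)
    (horb : ∀ x : G, ∃ m : ℕ, 0 < m ∧ φ ^ m • x = x)
    (hval : ∀ j n' : ℕ, 0 < n' → ¬ ℓ ∣ n' → padicValInt ℓ (h (m₁ * n' * ℓ ^ j)) = c + d * j) :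
    Finite {x : G // ℓ • x = 0} ∧ ℓ ^ d ≤ Nat.card {x : G // ℓ • x = 0} ∧
    ∀ D : AddSubgroup G, (∀ x ∈ D, ∃ n : ℕ, ℓ ^ n • x = 0) → (∀ x ∈ D, ∃ y ∈ D, ℓ • y = x) →
      Nat.card {x : G // x ∈ D ∧ ℓ • x = 0} ≤ ℓ ^ d := by
  have hℓ : ℓ.Prime := Fact.out
  refine anchor_of_counts_smul ℓ φ (fun m => Nat.card {x : G // φ ^ m • x = x}) m₁ c d hm₁
    (fun m _ => rfl) (fun m hm h0 => hpos m hm ?_) horb (fun j n' hn' hℓn' => ?_)
  · rw [← hfix m hm, h0, Nat.cast_zero]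
  · have hM : 0 < m₁ * n' * ℓ ^ j := Nat.mul_pos (Nat.mul_pos hm₁ hn') (pow_pos hℓ.pos _)
    rw [← hval j n' hn' hℓn', ← hfix _ hM, padicValInt.of_nat]

end Anchor

end Fermat.Agent.S27P.GT
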