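/-
S27 (row 26), brick (AR) (helper38) — the arithmetic of the class numbers `h_m = ∏ (1 - α_i ^ m)`.

For algebraic integers `α_i` (`i ∈ ι`) of a field `E` of characteristic `0`, each dividing a power
of an integer `q` prime to `ℓ`, and nonzero integers `h m` with `h m = ∏ i, (1 - α_i ^ m)`:

  `∃ m₁ > 0, ∃ c, ∀ j n', 0 < n' → ¬ ℓ ∣ n' → v_ℓ (h (m₁ * n' * ℓ ^ j)) = c + #ι * j`.

Proof: in the finitely generated ring `S = ℤ[α_i, β_i]` the `α_i` are units modulo `ℓ²`, so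
`α_i ^ m₁ ≡ 1 mod ℓ²` for `m₁ = #(S/ℓ²)ˣ`; for `β ≡ 1 mod ℓ²` there is the ring identity
`1 - β ^ (n * ℓ ^ j) = (1 - β) * ℓ ^ j * u` with `u ≡ n mod ℓ`; and an element of `S` which is
rational is an integer.

* `one_sub_pow_mul_prime_pow` : the ring identity;
* `exists_int_of_isIntegral_of_mul_eq` : integral + rational ⟹ integer;
* `exists_pow_sub_one_dvd` : the exponent `m₁`;
* `exists_padicVal_linear` : (AR), indexed family, `α_i ∣ q ^ N`;
* `exists_padicVal_linear_of_prod` : (AR), indexed family, `∏ α_i = q ^ g`;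
* `exists_padicVal_linear_multiset` : (AR), multiset of roots.
-/
import Mathlib

set_option autoImplicit false
set_option linter.style.haveILetI false

namespace Fermat.Agent.S27P.AR

open Finset

/-! ### The ring identity -/

section Ring

variable {R : Type*} [CommRing R]

/-- `∑_{t<n} β^t ≡ n` modulo `β - 1`. -/
theorem sub_one_dvd_geom_sum_sub (β : R) (n : ℕ) :
    β - 1 ∣ (∑ t ∈ range n, β ^ t) - (n : R) := by
  have h : (∑ t ∈ range n, β ^ t) - (n : R) = ∑ t ∈ range n, (β ^ t - 1) := by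
    simp [Finset.sum_sub_distrib]
  rw [h]
  exact Finset.dvd_sum fun t _ => by simpa using sub_dvd_pow_sub_pow β 1 t

/-- For `ℓ² ∣ β - 1`: `1 - β^ℓ = (1 - β) * ℓ * v` with `v ≡ 1 mod ℓ`. -/
theorem one_sub_pow_prime (ℓ : ℕ) (β : R) (hβ : (ℓ : R) ^ 2 ∣ β - 1) :
    ∃ v : R, 1 - β ^ ℓ = (1 - β) * (ℓ : R) * v ∧ (ℓ : R) ∣ v - 1 := by
  obtain ⟨γ, hγ⟩ := hβ
  obtain ⟨s, hs⟩ := sub_one_dvd_geom_sum_sub β ℓ
  refine ⟨1 + (ℓ : R) * γ * s, ?_, ⟨γ * s, by ring⟩⟩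
  have h1 : (1 - β) * ∑ t ∈ range ℓ, β ^ t = 1 - β ^ ℓ := mul_neg_geom_sum β ℓ
  have h2 : ∑ t ∈ range ℓ, β ^ t = (ℓ : R) + (β - 1) * s := by rw [← hs]; ring
  rw [← h1, h2, hγ]
  ring

/-- For `ℓ² ∣ β - 1`: `1 - β^(ℓ^j) = (1 - β) * ℓ^j * v` with `v ≡ 1 mod ℓ`. -/
theorem one_sub_pow_prime_pow (ℓ : ℕ) (β : R) (hβ : (ℓ : R) ^ 2 ∣ β - 1) (j : ℕ) :
    ∃ v : R, 1 - β ^ (ℓ ^ j) = (1 - β) * (ℓ : R) ^ j * v ∧ (ℓ : R) ∣ v - 1 := by
  induction j with
  | zero => exact ⟨1, by simp, by simp⟩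
  | succ j ih =>
    obtain ⟨v, hv, hv1⟩ := ih
    have hβ' : (ℓ : R) ^ 2 ∣ β ^ (ℓ ^ j) - 1 := by
      have h : β ^ (ℓ ^ j) - 1 = (β - 1) * ((ℓ : R) ^ j * v) := by linear_combination -hv
      rw [h]
      exact Dvd.dvd.mul_right hβ _
    obtain ⟨v', hv', hv'1⟩ := one_sub_pow_prime ℓ (β ^ (ℓ ^ j)) hβ'
    refine ⟨v * v', ?_, ?_⟩
    · rw [pow_succ, pow_mul, hv', hv]
      ring
    · have h : v * v' - 1 = (v - 1) * v' + (v' - 1) := by ring
      rw [h]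
      exact dvd_add (Dvd.dvd.mul_right hv1 _) hv'1

/-- **The ring identity.**  For `ℓ² ∣ β - 1`:
`1 - β^(n * ℓ^j) = (1 - β) * ℓ^j * u` with `u ≡ n mod ℓ`. -/
theorem one_sub_pow_mul_prime_pow (ℓ : ℕ) (β : R) (hβ : (ℓ : R) ^ 2 ∣ β - 1) (j n : ℕ) :
    ∃ u : R, 1 - β ^ (n * ℓ ^ j) = (1 - β) * (ℓ : R) ^ j * u ∧ (ℓ : R) ∣ u - (n : R) := by
  obtain ⟨v, hv, hv1⟩ := one_sub_pow_prime_pow ℓ β hβ j
  have hβ' : (ℓ : R) ∣ β ^ (ℓ ^ j) - 1 := by
    have h : β ^ (ℓ ^ j) - 1 = (β - 1) * ((ℓ : R) ^ j * v) := by linear_combination -hv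
    rw [h]
    exact Dvd.dvd.mul_right ((dvd_pow_self _ two_ne_zero).trans hβ) _
  obtain ⟨s, hs⟩ := sub_one_dvd_geom_sum_sub (β ^ (ℓ ^ j)) n
  refine ⟨v * ∑ t ∈ range n, (β ^ (ℓ ^ j)) ^ t, ?_, ?_⟩
  · rw [mul_comm n, pow_mul, ← mul_neg_geom_sum (β ^ (ℓ ^ j)) n, hv]
    ring
  · have h : v * ∑ t ∈ range n, (β ^ (ℓ ^ j)) ^ t - (n : R) =
        (v - 1) * ∑ t ∈ range n, (β ^ (ℓ ^ j)) ^ t +
          ((∑ t ∈ range n, (β ^ (ℓ ^ j)) ^ t) - n) := by ring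
    rw [h, hs]
    exact dvd_add (Dvd.dvd.mul_right hv1 _) (Dvd.dvd.mul_right hβ' _)

/-- A product of congruences. -/
theorem dvd_prod_sub_pow {ι : Type*} (s : Finset ι) (d : R) (u : ι → R) (n : R)
    (hu : ∀ i ∈ s, d ∣ u i - n) : d ∣ (∏ i ∈ s, u i) - n ^ s.card := by
  classical
  induction s using Finset.induction_on with
  | empty => simp
  | insert a s ha ih =>
    rw [Finset.prod_insert ha, Finset.card_insert_of_notMem ha, pow_succ]
    have h : u a * ∏ i ∈ s, u i - n ^ s.card * n =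
        (u a - n) * ∏ i ∈ s, u i + n * ((∏ i ∈ s, u i) - n ^ s.card) := by ring
    rw [h]
    exact dvd_add (Dvd.dvd.mul_right (hu a (Finset.mem_insert_self a s)) _)
      (Dvd.dvd.mul_left (ih fun i hi => hu i (Finset.mem_insert_of_mem hi)) _)

end Ring

/-! ### Integral and rational ⟹ integer -/

/-- An element `r` of a field of characteristic `0` which is integral over `ℤ` and satisfies
`a * r = b` for integers `a ≠ 0`, `b` is an integer `z`, and `b = a * z`. -/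
theorem exists_int_of_isIntegral_of_mul_eq {E : Type*} [Field E] [CharZero E] {r : E}
    (hr : IsIntegral ℤ r) {a b : ℤ} (ha : a ≠ 0) (h : (a : E) * r = (b : E)) :
    ∃ z : ℤ, r = (z : E) ∧ b = a * z := by
  have haE : (a : E) ≠ 0 := Int.cast_ne_zero.2 ha
  have haQ : (a : ℚ) ≠ 0 := Int.cast_ne_zero.2 ha
  have hr' : r = algebraMap ℚ E ((b : ℚ) / (a : ℚ)) := by
    rw [map_div₀, eq_div_iff (by simpa using haE)]
    simp only [map_intCast]
    rw [mul_comm]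
    exact h
  rw [hr'] at hr
  have hx : IsIntegral ℤ ((b : ℚ) / (a : ℚ)) :=
    (isIntegral_algebraMap_iff (algebraMap ℚ E).injective).1 hr
  obtain ⟨z, hz⟩ := IsIntegrallyClosed.isIntegral_iff.1 hx
  refine ⟨z, ?_, ?_⟩
  · rw [hr', ← hz]
    simp
  · have h1 : (b : ℚ) = (a : ℚ) * (z : ℚ) := by
      have h2 : (z : ℚ) = (b : ℚ) / (a : ℚ) := by simpa using hz
      rw [h2]
      field_simp
    exact_mod_cast h1

/-! ### The exponent `m₁` -/

/-- In a commutative ring `S` which is a finitely generated `ℤ`-module, finitely many elements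
`a i`, each dividing the image of `q ^ N` with `q` prime to `ℓ`, have a common power
`a i ^ m₁ ≡ 1 mod ℓ²`, `m₁ > 0`. -/
theorem exists_pow_sub_one_dvd {S : Type*} [CommRing S] [Module.Finite ℤ S] (ℓ : ℕ)
    [Fact ℓ.Prime] {ι : Type*} (a b : ι → S) (q N : ℕ) (hq : ¬ ℓ ∣ q)
    (hab : ∀ i, a i * b i = (q : S) ^ N) :
    ∃ m₁ : ℕ, 0 < m₁ ∧ ∀ i, (ℓ : S) ^ 2 ∣ a i ^ m₁ - 1 := by
  classical
  have hℓ : ℓ.Prime := Fact.out
  set I : Ideal S := Ideal.span {(ℓ : S) ^ 2} with hI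
  -- the quotient is finite
  haveI : Module.Finite ℤ (S ⧸ I) :=
    Module.Finite.of_surjective (Ideal.Quotient.mkₐ ℤ I).toLinearMap
      (Ideal.Quotient.mkₐ_surjective ℤ I)
  have htors : Module.IsTorsion ℤ (S ⧸ I) := by
    intro x
    obtain ⟨s, rfl⟩ := Ideal.Quotient.mk_surjective x
    have hne : ((ℓ : ℤ) ^ 2) ∈ nonZeroDivisors ℤ :=
      mem_nonZeroDivisors_of_ne_zero (pow_ne_zero 2 (by exact_mod_cast hℓ.ne_zero))
    refine ⟨⟨(ℓ : ℤ) ^ 2, hne⟩, ?_⟩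
    change ((ℓ : ℤ) ^ 2) • (Ideal.Quotient.mk I s) = 0
    rw [← map_zsmul, Ideal.Quotient.eq_zero_iff_mem, hI, Ideal.mem_span_singleton]
    exact ⟨s, by simp [zsmul_eq_mul]⟩
  haveI : Finite (S ⧸ I) := Module.finite_of_fg_torsion (S ⧸ I) htors
  -- `q ^ N` is a unit of the quotient
  have hcop : IsCoprime ((q : ℤ) ^ N) ((ℓ : ℤ) ^ 2) := by
    apply IsCoprime.pow
    rw [Int.isCoprime_iff_gcd_eq_one]
    have h1 : Nat.Coprime q ℓ := (Nat.Coprime.symm ((Nat.Prime.coprime_iff_not_dvd hℓ).2 hq))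
    simpa [Int.gcd_natCast_natCast] using h1
  obtain ⟨x, y, hxy⟩ := hcop
  have hunit : ∀ i, IsUnit (Ideal.Quotient.mk I (a i)) := by
    intro i
    refine IsUnit.of_mul_eq_one (Ideal.Quotient.mk I (b i * (x : S))) ?_
    rw [← map_mul, ← map_one (Ideal.Quotient.mk I), Ideal.Quotient.eq, hI,
      Ideal.mem_span_singleton]
    refine ⟨-(y : S), ?_⟩
    have h2 : ((x * (q : ℤ) ^ N + y * (ℓ : ℤ) ^ 2 : ℤ) : S) = 1 := by rw [hxy]; simp
    push_cast at h2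
    have h3 := hab i
    linear_combination (x : S) * h3 + h2
  refine ⟨Nat.card (S ⧸ I)ˣ, Nat.card_pos, fun i => ?_⟩
  have h4 : (hunit i).unit ^ Nat.card (S ⧸ I)ˣ = 1 := pow_card_eq_one'
  have h5 : (Ideal.Quotient.mk I (a i)) ^ Nat.card (S ⧸ I)ˣ = 1 := by
    have h6 := congrArg Units.val h4
    rwa [Units.val_pow_eq_pow_val, IsUnit.unit_spec, Units.val_one] at h6
  rw [← map_pow, ← map_one (Ideal.Quotient.mk I), Ideal.Quotient.eq, hI,
    Ideal.mem_span_singleton] at h5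
  exact h5

/-! ### (AR) -/

/-- **(AR), indexed family.**  `α i` algebraic integers of a field of characteristic `0`, each
dividing `q ^ N` (in the ring of algebraic integers), `ℓ ∤ q`; `h m` nonzero integers with
`h m = ∏ i, (1 - α i ^ m)` for `m > 0`.  Then there are `m₁ > 0` and `c` with
`v_ℓ (h (m₁ * n' * ℓ ^ j)) = c + #ι * j` for all `j` and all `n' > 0` prime to `ℓ`. -/
theorem exists_padicVal_linear {E : Type*} [Field E] [CharZero E] (ℓ : ℕ) [Fact ℓ.Prime]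
    {ι : Type*} [Fintype ι] (α : ι → E) (hint : ∀ i, IsIntegral ℤ (α i))
    (q N : ℕ) (hq : ¬ ℓ ∣ q) (hunit : ∀ i, ∃ β : E, IsIntegral ℤ β ∧ α i * β = (q : E) ^ N)
    (h : ℕ → ℤ) (hh : ∀ m, 0 < m → ((h m : ℤ) : E) = ∏ i, (1 - α i ^ m))
    (hh0 : ∀ m, 0 < m → h m ≠ 0) :
    ∃ m₁ : ℕ, 0 < m₁ ∧ ∃ c : ℕ, ∀ j n' : ℕ, 0 < n' → ¬ ℓ ∣ n' →
      padicValInt ℓ (h (m₁ * n' * ℓ ^ j)) = c + Fintype.card ι * j := by
  classical
  have hℓ : ℓ.Prime := Fact.out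
  choose β hβint hαβ using hunit
  -- the finitely generated ring `S = ℤ[α, β]`
  set S : Subalgebra ℤ E := Algebra.adjoin ℤ (Set.range α ∪ Set.range β) with hS
  have hfg : (Subalgebra.toSubmodule S).FG := by
    refine fg_adjoin_of_finite ((Set.finite_range α).union (Set.finite_range β)) ?_
    rintro x (⟨i, rfl⟩ | ⟨i, rfl⟩)
    · exact hint i
    · exact hβint i
  haveI : Module.Finite ℤ S := Module.Finite.iff_fg.2 hfg
  have hSint : ∀ x : S, IsIntegral ℤ (x : E) := by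
    intro x
    have hle : S ≤ integralClosure ℤ E := by
      refine Algebra.adjoin_le ?_
      rintro x (⟨i, rfl⟩ | ⟨i, rfl⟩)
      · exact (mem_integralClosure_iff ℤ E).2 (hint i)
      · exact (mem_integralClosure_iff ℤ E).2 (hβint i)
    exact (mem_integralClosure_iff ℤ E).1 (hle x.2)
  let a : ι → S := fun i => ⟨α i, Algebra.subset_adjoin (Or.inl ⟨i, rfl⟩)⟩
  let b : ι → S := fun i => ⟨β i, Algebra.subset_adjoin (Or.inr ⟨i, rfl⟩)⟩
  have hab : ∀ i, a i * b i = (q : S) ^ N := by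
    intro i
    apply Subtype.ext
    simpa [a, b] using hαβ i
  have hcN : ∀ n : ℕ, ((n : S) : E) = (n : E) := fun n => map_natCast S.val n
  obtain ⟨m₁, hm₁, hdvd⟩ := exists_pow_sub_one_dvd ℓ a b q N hq hab
  refine ⟨m₁, hm₁, padicValInt ℓ (h m₁), ?_⟩
  intro j n' hn' hℓn'
  have hm : 0 < m₁ * n' * ℓ ^ j :=
    Nat.mul_pos (Nat.mul_pos hm₁ hn') (pow_pos hℓ.pos j)
  -- the identities in `S`
  have hid : ∀ i, ∃ u : S, 1 - (a i ^ m₁) ^ (n' * ℓ ^ j) = (1 - a i ^ m₁) * (ℓ : S) ^ j * u ∧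
      (ℓ : S) ∣ u - (n' : S) := fun i =>
    one_sub_pow_mul_prime_pow ℓ (a i ^ m₁) (hdvd i) j n'
  choose u hu hu' using hid
  have hU : (ℓ : S) ∣ (∏ i, u i) - (n' : S) ^ Fintype.card ι := by
    have := dvd_prod_sub_pow (Finset.univ : Finset ι) (ℓ : S) u (n' : S) (fun i _ => hu' i)
    simpa using this
  obtain ⟨s, hs⟩ := hU
  -- the product formula in `E`
  have hprodS : (∏ i, (1 - a i ^ (m₁ * n' * ℓ ^ j))) =
      (∏ i, (1 - a i ^ m₁)) * (ℓ : S) ^ (Fintype.card ι * j) * ∏ i, u i := by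
    have h1 : ∀ i, 1 - a i ^ (m₁ * n' * ℓ ^ j) = (1 - a i ^ m₁) * (ℓ : S) ^ j * u i := by
      intro i
      rw [mul_assoc, pow_mul]
      exact hu i
    rw [Finset.prod_congr rfl (fun i _ => h1 i), Finset.prod_mul_distrib,
      Finset.prod_mul_distrib, Finset.prod_const, Finset.card_univ, ← pow_mul, mul_comm j]
  have hcoe : ∀ m : ℕ, ((∏ i, (1 - a i ^ m) : S) : E) = ∏ i, (1 - α i ^ m) := by
    intro m
    rw [← Subalgebra.coe_val, map_prod]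
    simp [a]
  have hE : ((h m₁ * (ℓ : ℤ) ^ (Fintype.card ι * j) : ℤ) : E) * ((∏ i, u i : S) : E) =
      ((h (m₁ * n' * ℓ ^ j) : ℤ) : E) := by
    rw [hh _ hm, ← hcoe, hprodS]
    push_cast
    rw [hh _ hm₁, ← hcoe]
  have hne : h m₁ * (ℓ : ℤ) ^ (Fintype.card ι * j) ≠ 0 :=
    mul_ne_zero (hh0 _ hm₁) (pow_ne_zero _ (by exact_mod_cast hℓ.ne_zero))
  obtain ⟨z, hz, hzeq⟩ := exists_int_of_isIntegral_of_mul_eq (hSint _) hne hE
  -- `ℓ ∤ z`
  have hzℓ : ¬ (ℓ : ℤ) ∣ z := by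
    intro hdz
    have hE2 : ((ℓ : ℤ) : E) * (s : E) = ((z - (n' : ℤ) ^ Fintype.card ι : ℤ) : E) := by
      have h7 := congrArg (fun x : S => (x : E)) hs
      simp only [Subalgebra.coe_sub, Subalgebra.coe_mul, Subalgebra.coe_pow, hcN] at h7
      rw [hz] at h7
      push_cast
      rw [← h7]
    obtain ⟨z', -, hz'⟩ := exists_int_of_isIntegral_of_mul_eq (hSint s)
      (by exact_mod_cast hℓ.ne_zero : (ℓ : ℤ) ≠ 0) hE2
    have h3 : (ℓ : ℤ) ∣ (n' : ℤ) ^ Fintype.card ι := by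
      have h4 : (n' : ℤ) ^ Fintype.card ι = z - (ℓ : ℤ) * z' := by linarith
      rw [h4]
      exact dvd_sub hdz (dvd_mul_right _ _)
    have h5 : (ℓ : ℤ) ∣ (n' : ℤ) := Int.Prime.dvd_pow' hℓ h3
    exact hℓn' (by exact_mod_cast h5)
  have hz0 : z ≠ 0 := by
    rintro rfl
    exact hzℓ (dvd_zero _)
  rw [hzeq, padicValInt.mul hne hz0, padicValInt.mul (hh0 _ hm₁)
    (pow_ne_zero _ (by exact_mod_cast hℓ.ne_zero)), padicValInt.eq_zero_of_not_dvd hzℓ,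
    add_zero]
  congr 1
  have h6 : padicValInt ℓ ((ℓ : ℤ) ^ (Fintype.card ι * j)) =
      padicValNat ℓ (ℓ ^ (Fintype.card ι * j)) := by
    rw [← padicValInt.of_nat]
    push_cast
    rfl
  rw [h6, padicValNat.prime_pow]

/-- **(AR), indexed family, product form.**  As `exists_padicVal_linear`, with the hypothesis
`∏ i, α i = q ^ g` (so that every `α i` divides `q ^ g`). -/
theorem exists_padicVal_linear_of_prod {E : Type*} [Field E] [CharZero E] (ℓ : ℕ)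
    [Fact ℓ.Prime] {ι : Type*} [Fintype ι] (α : ι → E) (hint : ∀ i, IsIntegral ℤ (α i))
    (q g : ℕ) (hq : ¬ ℓ ∣ q) (hprod : ∏ i, α i = (q : E) ^ g)
    (h : ℕ → ℤ) (hh : ∀ m, 0 < m → ((h m : ℤ) : E) = ∏ i, (1 - α i ^ m))
    (hh0 : ∀ m, 0 < m → h m ≠ 0) :
    ∃ m₁ : ℕ, 0 < m₁ ∧ ∃ c : ℕ, ∀ j n' : ℕ, 0 < n' → ¬ ℓ ∣ n' →
      padicValInt ℓ (h (m₁ * n' * ℓ ^ j)) = c + Fintype.card ι * j := by
  classical
  refine exists_padicVal_linear ℓ α hint q g hq (fun i => ?_) h hh hh0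
  refine ⟨∏ j ∈ Finset.univ.erase i, α j, IsIntegral.prod _ (fun j _ => hint j), ?_⟩
  rw [Finset.mul_prod_erase _ _ (Finset.mem_univ i), hprod]

/-- **(AR), multiset form.**  `s` a multiset of algebraic integers of a field of characteristic
`0` with `s.prod = q ^ g`, `ℓ ∤ q`; `h m` nonzero integers with `h m = ∏_{a ∈ s} (1 - a ^ m)`.
Then `v_ℓ (h (m₁ * n' * ℓ ^ j)) = c + #s * j` for all `j` and all `n' > 0` prime to `ℓ`. -/
theorem exists_padicVal_linear_multiset {E : Type*} [Field E] [CharZero E] (ℓ : ℕ)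
    [Fact ℓ.Prime] (s : Multiset E) (hint : ∀ a ∈ s, IsIntegral ℤ a)
    (q g : ℕ) (hq : ¬ ℓ ∣ q) (hprod : s.prod = (q : E) ^ g)
    (h : ℕ → ℤ) (hh : ∀ m, 0 < m → ((h m : ℤ) : E) = (s.map (fun a => 1 - a ^ m)).prod)
    (hh0 : ∀ m, 0 < m → h m ≠ 0) :
    ∃ m₁ : ℕ, 0 < m₁ ∧ ∃ c : ℕ, ∀ j n' : ℕ, 0 < n' → ¬ ℓ ∣ n' →
      padicValInt ℓ (h (m₁ * n' * ℓ ^ j)) = c + Multiset.card s * j := by
  classical
  obtain ⟨l, rfl⟩ := Quot.exists_rep s
  have key := exists_padicVal_linear_of_prod ℓ (fun i : Fin l.length => l[i])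
    (fun i => hint _ (by
      change l[i] ∈ (l : Multiset E)
      rw [Multiset.mem_coe]
      exact List.getElem_mem _))
    q g hq
    (by
      have h1 : (∏ i : Fin l.length, l[i]) = l.prod := Fin.prod_univ_getElem l
      rw [h1]
      simpa using hprod)
    h
    (fun m hm => by
      rw [hh m hm]
      have h2 : (∏ i : Fin l.length, (1 - l[i] ^ m)) = (l.map (fun a => 1 - a ^ m)).prod :=
        Fin.prod_univ_fun_getElem l (fun a => 1 - a ^ m)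
      rw [h2]
      rfl)
    hh0
  simpa using key

/-- **(AR), multiset form, natural-number class numbers.** -/
theorem exists_padicValNat_linear_multiset {E : Type*} [Field E] [CharZero E] (ℓ : ℕ)
    [Fact ℓ.Prime] (s : Multiset E) (hint : ∀ a ∈ s, IsIntegral ℤ a)
    (q g : ℕ) (hq : ¬ ℓ ∣ q) (hprod : s.prod = (q : E) ^ g)
    (h : ℕ → ℕ) (hh : ∀ m, 0 < m → ((h m : ℕ) : E) = (s.map (fun a => 1 - a ^ m)).prod)
    (hh0 : ∀ m, 0 < m → h m ≠ 0) :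
    ∃ m₁ : ℕ, 0 < m₁ ∧ ∃ c : ℕ, ∀ j n' : ℕ, 0 < n' → ¬ ℓ ∣ n' →
      padicValNat ℓ (h (m₁ * n' * ℓ ^ j)) = c + Multiset.card s * j := by
  obtain ⟨m₁, hm₁, c, hc⟩ := exists_padicVal_linear_multiset ℓ s hint q g hq hprod
    (fun m => (h m : ℤ)) (fun m hm => by
      rw [← hh m hm]
      push_cast
      rfl) (fun m hm => by exact_mod_cast hh0 m hm)
  refine ⟨m₁, hm₁, c, fun j n' hn' hℓn' => ?_⟩
  rw [← hc j n' hn' hℓn', padicValInt.of_nat]

end Fermat.Agent.S27P.AR
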