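/-
S27 / (Z-ALG) — the FORMAL END of the zeta anchor (helper98).

Input (delivered by the geometric part of (Z), each item being ONE theorem applied to `φ^m`):
* `A m n` : the number of `φ^m`-fixed effective divisors of degree `n`;
* `N r`   : the number of `φ^r`-fixed places;
* the double count `n · A m n = ∑_{r = 1}^{n} N (m r) · A m (n - r)`;
* the `L`-polynomial `L m = (1 - t)(1 - q^m t) ∑ A m n t^n`, with `h m = L m (1)`.

Output: if `L 1 = ∏ (1 - α_i t)` over a field `E` of characteristic zero, then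
`N r = q^r + 1 - ∑ α_i^r`, `L m = ∏ (1 - α_i^m t)` and `h m = ∏ (1 - α_i^m)`.

Two ingredients: the logarithmic derivative of a product (`HasLog`), and the uniqueness of the
solution of the recursion in characteristic zero.
Mathlib only; universe polymorphic.
-/
import Mathlib

set_option autoImplicit false

namespace Fermat.Agent.S27P.ZAlg

open PowerSeries

section LogDerivative

variable {E : Type*} [Field E]

/-- `G` is a logarithmic derivative of `f` for the Euler operator `X · d/dX`. -/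
def HasLog (f G : E⟦X⟧) : Prop := X * d⁄dX E f = f * G

theorem hasLog_one : HasLog (1 : E⟦X⟧) 0 := by
  simp [HasLog]

theorem HasLog.mul {f g G H : E⟦X⟧} (hf : HasLog f G) (hg : HasLog g H) :
    HasLog (f * g) (G + H) := by
  unfold HasLog at *
  have h := (d⁄dX E).leibniz f g
  simp only [smul_eq_mul] at h
  rw [h]
  calc X * (f * d⁄dX E g + g * d⁄dX E f)
      = f * (X * d⁄dX E g) + g * (X * d⁄dX E f) := by ring
    _ = f * (g * H) + g * (f * G) := by rw [hf, hg]
    _ = f * g * (G + H) := by ring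

theorem HasLog.inv {f G : E⟦X⟧} (hf : HasLog f G) (h0 : constantCoeff f ≠ 0) :
    HasLog f⁻¹ (-G) := by
  unfold HasLog at *
  have hinv : f⁻¹ * f = 1 := PowerSeries.inv_mul_cancel f h0
  rw [derivative_inv']
  calc X * (-f⁻¹ ^ 2 * d⁄dX E f) = -(f⁻¹ ^ 2 * (X * d⁄dX E f)) := by ring
    _ = -(f⁻¹ ^ 2 * (f * G)) := by rw [hf]
    _ = -(f⁻¹ * (f⁻¹ * f) * G) := by ring
    _ = f⁻¹ * -G := by rw [hinv]; ring

theorem hasLog_prod {ι : Type*} (s : Finset ι) (f G : ι → E⟦X⟧) (h : ∀ i ∈ s, HasLog (f i) (G i)) :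
    HasLog (∏ i ∈ s, f i) (∑ i ∈ s, G i) := by
  classical
  induction s using Finset.induction_on with
  | empty => simpa using hasLog_one
  | insert a s ha ih =>
    rw [Finset.prod_insert ha, Finset.sum_insert ha]
    exact (h a (Finset.mem_insert_self a s)).mul
      (ih fun i hi => h i (Finset.mem_insert_of_mem hi))

/-- The series `∑_{r ≥ 1} a^r X^r`. -/
noncomputable def geo (a : E) : E⟦X⟧ := PowerSeries.mk fun r => if r = 0 then 0 else a ^ r

@[simp] theorem coeff_geo (a : E) (r : ℕ) : coeff r (geo a) = if r = 0 then 0 else a ^ r := by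
  simp [geo]

theorem one_sub_mul_geo (a : E) : (1 - C a * X) * geo a = C a * X := by
  ext n
  rw [sub_mul, one_mul, map_sub, mul_assoc]
  rcases n with _ | n
  · simp
  · rw [coeff_C_mul, coeff_C_mul, coeff_succ_X_mul, coeff_geo, coeff_geo]
    rcases n with _ | n
    · simp
    · simp [coeff_X, pow_succ]
      ring

theorem hasLog_one_sub (a : E) : HasLog (1 - C a * X) (-geo a) := by
  unfold HasLog
  have h1 : d⁄dX E (1 - C a * X : E⟦X⟧) = -C a := by
    rw [map_sub, derivative_one, zero_sub]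
    have h := (d⁄dX E).leibniz (C a : E⟦X⟧) X
    simp only [smul_eq_mul, derivative_C, derivative_X, mul_zero, add_zero, mul_one] at h
    rw [h]
  rw [h1, mul_neg, mul_neg, one_sub_mul_geo]
  ring

theorem constantCoeff_one_sub (a : E) : constantCoeff (1 - C a * X : E⟦X⟧) = 1 := by
  simp

/-- The recursion satisfied by the coefficients of a series with a logarithmic derivative without
constant term. -/
theorem HasLog.rec {Z G : E⟦X⟧} (h : HasLog Z G) (hG : coeff 0 G = 0) (n : ℕ) :
    (n : E) * coeff n Z = ∑ r ∈ Finset.Icc 1 n, coeff r G * coeff (n - r) Z := by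
  unfold HasLog at h
  have h1 : coeff n (X * d⁄dX E Z) = (n : E) * coeff n Z := by
    rcases n with _ | n
    · simp
    · rw [coeff_succ_X_mul, coeff_derivative]
      push_cast
      ring
  rw [← h1, h, mul_comm Z G, coeff_mul, Finset.Nat.sum_antidiagonal_eq_sum_range_succ_mk,
    Finset.sum_range_succ', hG, zero_mul, add_zero]
  have hIcc : Finset.Icc 1 n = Finset.Ico 1 (n + 1) := by
    ext k
    simp
  rw [hIcc, Finset.sum_Ico_eq_sum_range]
  apply Finset.sum_congr
  · simp
  · intro k _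
    simp [add_comm]

end LogDerivative

section Recursion

variable {E : Type*} [Field E] [CharZero E]

/-- **Uniqueness**: in characteristic zero a sequence is determined by `B 0` and the recursion
`n · B n = ∑_{r = 1}^{n} c r · B (n - r)`. -/
theorem eq_of_rec (c B B' : ℕ → E) (h0 : B 0 = B' 0)
    (hB : ∀ n : ℕ, 0 < n → (n : E) * B n = ∑ r ∈ Finset.Icc 1 n, c r * B (n - r))
    (hB' : ∀ n : ℕ, 0 < n → (n : E) * B' n = ∑ r ∈ Finset.Icc 1 n, c r * B' (n - r)) :
    ∀ n, B n = B' n := by
  intro n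
  induction n using Nat.strong_induction_on with
  | _ n ih =>
    rcases Nat.eq_zero_or_pos n with rfl | hn
    · exact h0
    · have hne : (n : E) ≠ 0 := Nat.cast_ne_zero.mpr hn.ne'
      apply mul_left_cancel₀ hne
      rw [hB n hn, hB' n hn]
      apply Finset.sum_congr rfl
      intro r hr
      rw [Finset.mem_Icc] at hr
      rw [ih (n - r) (by omega)]

omit [CharZero E] in
/-- The coefficients `c r` (`r ≥ 1`) of the recursion are determined by one solution with
`B 0 = 1`. -/
theorem coeff_eq_of_rec (c c' B : ℕ → E) (h0 : B 0 = 1)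
    (hB : ∀ n : ℕ, 0 < n → (n : E) * B n = ∑ r ∈ Finset.Icc 1 n, c r * B (n - r))
    (hB' : ∀ n : ℕ, 0 < n → (n : E) * B n = ∑ r ∈ Finset.Icc 1 n, c' r * B (n - r)) :
    ∀ n, 0 < n → c n = c' n := by
  intro n
  induction n using Nat.strong_induction_on with
  | _ n ih =>
    intro hn
    obtain ⟨k, rfl⟩ : ∃ k, n = k + 1 := ⟨n - 1, by omega⟩
    have h1 := hB (k + 1) hn
    have h2 := hB' (k + 1) hn
    rw [Finset.sum_Icc_succ_top (by omega)] at h1 h2
    have h3 : ∑ r ∈ Finset.Icc 1 k, c r * B (k + 1 - r) =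
        ∑ r ∈ Finset.Icc 1 k, c' r * B (k + 1 - r) := by
      apply Finset.sum_congr rfl
      intro r hr
      rw [Finset.mem_Icc] at hr
      rw [ih r (by omega) (by omega)]
    rw [h1, h3] at h2
    have h4 := add_left_cancel h2
    simpa [h0] using h4

end Recursion

section ZetaSeries

variable {E : Type*} [Field E] {ι : Type*} [Fintype ι]

/-- The model zeta series `∏ (1 - a_i X) / ((1 - X)(1 - Q X))`. -/
noncomputable def zetaSeries (a : ι → E) (Q : E) : E⟦X⟧ :=
  (∏ i, (1 - C (a i) * X)) * (1 - C (1 : E) * X)⁻¹ * (1 - C Q * X)⁻¹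

/-- The logarithmic derivative of the model zeta series. -/
noncomputable def zetaLog (a : ι → E) (Q : E) : E⟦X⟧ :=
  (∑ i, -geo (a i)) + -(-geo (1 : E)) + -(-geo Q)

theorem hasLog_zetaSeries (a : ι → E) (Q : E) : HasLog (zetaSeries a Q) (zetaLog a Q) := by
  unfold zetaSeries zetaLog
  refine HasLog.mul (HasLog.mul ?_ ?_) ?_
  · exact hasLog_prod _ _ _ fun i _ => hasLog_one_sub (a i)
  · exact (hasLog_one_sub (1 : E)).inv (by rw [constantCoeff_one_sub]; exact one_ne_zero)
  · exact (hasLog_one_sub Q).inv (by rw [constantCoeff_one_sub]; exact one_ne_zero)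

theorem coeff_zetaLog (a : ι → E) (Q : E) (r : ℕ) :
    coeff r (zetaLog a Q) = if r = 0 then 0 else Q ^ r + 1 - ∑ i, a i ^ r := by
  unfold zetaLog
  simp only [neg_neg, map_add, map_sum, map_neg, coeff_geo]
  split_ifs with h
  · simp
  · simp
    ring

theorem constantCoeff_zetaSeries (a : ι → E) (Q : E) : coeff 0 (zetaSeries a Q) = 1 := by
  rw [coeff_zero_eq_constantCoeff_apply]
  unfold zetaSeries
  rw [map_mul, map_mul, map_prod, constantCoeff_inv, constantCoeff_inv]
  simp

/-- **Logarithmic derivative of the model zeta series**, coefficient form. -/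
theorem zetaSeries_rec (a : ι → E) (Q : E) (n : ℕ) :
    (n : E) * coeff n (zetaSeries a Q) =
      ∑ r ∈ Finset.Icc 1 n, (Q ^ r + 1 - ∑ i, a i ^ r) * coeff (n - r) (zetaSeries a Q) := by
  rw [(hasLog_zetaSeries a Q).rec (by rw [coeff_zetaLog]; simp) n]
  apply Finset.sum_congr rfl
  intro r hr
  rw [Finset.mem_Icc] at hr
  rw [coeff_zetaLog, if_neg (by omega)]

theorem denom_mul_zetaSeries (a : ι → E) (Q : E) :
    (1 - C (1 : E) * X) * (1 - C Q * X) * zetaSeries a Q = ∏ i, (1 - C (a i) * X) := by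
  unfold zetaSeries
  have h1 : (1 - C (1 : E) * X) * (1 - C (1 : E) * X)⁻¹ = 1 :=
    PowerSeries.mul_inv_cancel _ (by rw [constantCoeff_one_sub]; exact one_ne_zero)
  have h2 : (1 - C Q * X) * (1 - C Q * X)⁻¹ = (1 : E⟦X⟧) :=
    PowerSeries.mul_inv_cancel _ (by rw [constantCoeff_one_sub]; exact one_ne_zero)
  calc (1 - C (1 : E) * X) * (1 - C Q * X) *
        ((∏ i, (1 - C (a i) * X)) * (1 - C (1 : E) * X)⁻¹ * (1 - C Q * X)⁻¹)
      = (∏ i, (1 - C (a i) * X)) * ((1 - C (1 : E) * X) * (1 - C (1 : E) * X)⁻¹) *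
          ((1 - C Q * X) * (1 - C Q * X)⁻¹) := by ring
    _ = ∏ i, (1 - C (a i) * X) := by rw [h1, h2, mul_one, mul_one]

theorem denom_ne_zero (Q : E) : (1 - C (1 : E) * X) * (1 - C Q * X) ≠ (0 : E⟦X⟧) := by
  intro h
  have := congrArg constantCoeff h
  rw [map_mul, constantCoeff_one_sub, constantCoeff_one_sub] at this
  simp at this

/-- A series `Z` with `(1 - X)(1 - Q X) Z = ∏ (1 - a_i X)` is the model zeta series. -/
theorem eq_zetaSeries_of_denom_mul (a : ι → E) (Q : E) (Z : E⟦X⟧)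
    (h : (1 - C (1 : E) * X) * (1 - C Q * X) * Z = ∏ i, (1 - C (a i) * X)) :
    Z = zetaSeries a Q :=
  mul_left_cancel₀ (denom_ne_zero Q) (h.trans (denom_mul_zetaSeries a Q).symm)

end ZetaSeries

section Main

variable {E : Type*} [Field E] [CharZero E] {ι : Type*} [Fintype ι]

omit [CharZero E] in
/-- Coercion of the model numerator from polynomials to power series. -/
theorem coe_prod_one_sub (a : ι → E) :
    ((∏ i, (1 - Polynomial.C (a i) * Polynomial.X) : Polynomial E) : E⟦X⟧) =
      ∏ i, (1 - C (a i) * X) := by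
  have h : ∀ p : Polynomial E, (p : E⟦X⟧) = Polynomial.coeToPowerSeries.ringHom p := fun _ => rfl
  rw [h, map_prod]
  apply Finset.prod_congr rfl
  intro i _
  rw [← h]
  simp

omit [CharZero E] in
/-- Transport of the defining identity of the `L`-polynomial from `ℤ` to `E`. -/
theorem map_L_eq (q m : ℕ) (Am : ℕ → ℤ) (Lm : Polynomial ℤ)
    (hL : (Lm : PowerSeries ℤ) =
      (1 - PowerSeries.X) * (1 - (q : PowerSeries ℤ) ^ m * PowerSeries.X) * PowerSeries.mk Am) :
    ((Lm.map (Int.castRingHom E) : Polynomial E) : E⟦X⟧) =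
      (1 - C (1 : E) * X) * (1 - C ((q : E) ^ m) * X) * PowerSeries.mk fun n => (Am n : E) := by
  have h1 := congrArg (PowerSeries.map (Int.castRingHom E)) hL
  rw [← Polynomial.polynomial_map_coe] at h1
  rw [h1, map_mul, map_mul, map_sub, map_sub, map_one, map_mul, map_pow, map_natCast, map_X]
  have e1 : (C (1 : E) : E⟦X⟧) = 1 := map_one _
  have e2 : (C ((q : E) ^ m) : E⟦X⟧) = (q : E⟦X⟧) ^ m := by
    rw [map_pow, map_natCast]
  have e3 : PowerSeries.map (Int.castRingHom E) (PowerSeries.mk Am) =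
      PowerSeries.mk fun n => (Am n : E) := by
    ext n
    simp
  rw [e1, e2, e3, one_mul]

/-- **(Z-ALG)**: from the double count and the `L`-polynomials of all the `φ^m` to
`N r = q^r + 1 - ∑ α_i^r`, `L m = ∏ (1 - α_i^m t)` and `h m = ∏ (1 - α_i^m)`. -/
theorem h_eq_prod (α : ι → E) (q : ℕ)
    (N : ℕ → ℤ) (A : ℕ → ℕ → ℤ) (L : ℕ → Polynomial ℤ) (h : ℕ → ℤ)
    (hA0 : ∀ m, 0 < m → A m 0 = 1)
    (hrec : ∀ m, 0 < m → ∀ n : ℕ, 0 < n →
      (n : ℤ) * A m n = ∑ r ∈ Finset.Icc 1 n, N (m * r) * A m (n - r))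
    (hL : ∀ m, 0 < m → ((L m : Polynomial ℤ) : PowerSeries ℤ) =
      (1 - PowerSeries.X) * (1 - (q : PowerSeries ℤ) ^ m * PowerSeries.X) * PowerSeries.mk (A m))
    (hL1 : (L 1).map (Int.castRingHom E) = ∏ i, (1 - Polynomial.C (α i) * Polynomial.X))
    (hh : ∀ m, 0 < m → h m = (L m).eval 1) :
    (∀ r, 0 < r → (N r : E) = (q : E) ^ r + 1 - ∑ i, α i ^ r) ∧
    (∀ m, 0 < m → (L m).map (Int.castRingHom E) =
      ∏ i, (1 - Polynomial.C (α i ^ m) * Polynomial.X)) ∧
    ∀ m, 0 < m → ((h m : ℤ) : E) = ∏ i, (1 - α i ^ m) := by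
  -- the recursion over `E`
  have hrecE : ∀ m, 0 < m → ∀ n : ℕ, 0 < n → (n : E) * (A m n : E) =
      ∑ r ∈ Finset.Icc 1 n, (N (m * r) : E) * (A m (n - r) : E) := by
    intro m hm n hn
    have := congrArg (Int.cast : ℤ → E) (hrec m hm n hn)
    push_cast at this
    exact this
  -- step 1: `m = 1`
  have hZ1 : (PowerSeries.mk fun n => (A 1 n : E)) = zetaSeries α ((q : E) ^ 1) := by
    apply eq_zetaSeries_of_denom_mul
    rw [← map_L_eq q 1 (A 1) (L 1) (hL 1 one_pos), hL1, coe_prod_one_sub]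
  have hN : ∀ r, 0 < r → (N r : E) = (q : E) ^ r + 1 - ∑ i, α i ^ r := by
    intro r hr
    have key := coeff_eq_of_rec (fun r => (N r : E)) (fun r => (q : E) ^ r + 1 - ∑ i, α i ^ r)
      (fun n => (A 1 n : E)) (by simp [hA0 1 one_pos])
      (fun n hn => by simpa using hrecE 1 one_pos n hn)
      (fun n _ => by
        have h1 := zetaSeries_rec α ((q : E) ^ 1) n
        rw [← hZ1] at h1
        simpa using h1)
    exact key r hr
  -- step 2: general `m`
  have hZm : ∀ m, 0 < m → (PowerSeries.mk fun n => (A m n : E)) =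
      zetaSeries (fun i => α i ^ m) ((q : E) ^ m) := by
    intro m hm
    ext n
    rw [coeff_mk]
    refine eq_of_rec (fun r => ((q : E) ^ m) ^ r + 1 - ∑ i, (α i ^ m) ^ r) (fun n => (A m n : E))
      (fun n => coeff n (zetaSeries (fun i => α i ^ m) ((q : E) ^ m))) ?_ ?_ ?_ n
    · rw [constantCoeff_zetaSeries]
      simp [hA0 m hm]
    · intro n hn
      rw [hrecE m hm n hn]
      apply Finset.sum_congr rfl
      intro r hr
      rw [Finset.mem_Icc] at hr
      rw [hN (m * r) (Nat.mul_pos hm (by omega))]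
      simp only [pow_mul]
    · intro n _
      exact zetaSeries_rec (fun i => α i ^ m) ((q : E) ^ m) n
  have hLm : ∀ m, 0 < m → (L m).map (Int.castRingHom E) =
      ∏ i, (1 - Polynomial.C (α i ^ m) * Polynomial.X) := by
    intro m hm
    apply Polynomial.coe_injective
    rw [map_L_eq q m (A m) (L m) (hL m hm), hZm m hm, denom_mul_zetaSeries, coe_prod_one_sub]
  refine ⟨hN, hLm, ?_⟩
  intro m hm
  have h1 : ((h m : ℤ) : E) = Polynomial.eval 1 ((L m).map (Int.castRingHom E)) := by
    rw [Polynomial.eval_one_map, hh m hm]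
    simp
  rw [h1, hLm m hm, Polynomial.eval_prod]
  apply Finset.prod_congr rfl
  intro i _
  simp

end Main

end Fermat.Agent.S27P.ZAlg
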